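/-
S15 / ABS-A (= S15-LAT), layer 1: abstract structure theory.

`K` a field, `A` a commutative `K`-algebra acting on the `K`-vector space `V`,
`ρ : Γ →* End_A V`, `χ : Γ →* K`, `t : Γ → A` with the Cayley-Hamilton relation
`ρ g + χ g • ρ g⁻¹ = t g` (`IsCH`).
-/
import Mathlib

set_option autoImplicit false

namespace Fermat.Agent.S15.Lat

variable {K A V Γ : Type*} [Field K] [CommRing A] [Algebra K A] [AddCommGroup V] [Module K V]
  [Module A V] [IsScalarTower K A V] [Group Γ]

/-- (CH) `ρ g + χ g • ρ g⁻¹ = t g`. -/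
def IsCH (ρ : Γ →* Module.End A V) (χ : Γ →* K) (t : Γ → A) : Prop :=
  ∀ g x, ρ g x + χ g • ρ g⁻¹ x = t g • x

/-- `S` is `Γ`-stable. -/
def Stable (ρ : Γ →* Module.End A V) (S : Submodule A V) : Prop :=
  ∀ g, ∀ x ∈ S, ρ g x ∈ S

/-- the largest `Γ`-stable `A`-submodule contained in `X` -/
def core (ρ : Γ →* Module.End A V) (X : Submodule A V) : Submodule A V :=
  ⨅ g, X.comap (ρ g)

theorem mem_core {ρ : Γ →* Module.End A V} {X : Submodule A V} {x : V} :
    x ∈ core ρ X ↔ ∀ g, ρ g x ∈ X := by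
  simp [core, Submodule.mem_iInf]

theorem core_le (ρ : Γ →* Module.End A V) (X : Submodule A V) : core ρ X ≤ X := by
  intro x hx
  have := mem_core.1 hx 1
  simpa using this

theorem core_stable (ρ : Γ →* Module.End A V) (X : Submodule A V) : Stable ρ (core ρ X) := by
  intro g x hx
  rw [mem_core] at hx ⊢
  intro h
  have := hx (h * g)
  rwa [map_mul] at this

theorem le_core {ρ : Γ →* Module.End A V} {X S : Submodule A V} (hS : Stable ρ S) (h : S ≤ X) :
    S ≤ core ρ X := fun x hx => mem_core.2 fun g => h (hS g x hx)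

theorem rho_inv_apply (ρ : Γ →* Module.End A V) (g : Γ) (x : V) : ρ g⁻¹ (ρ g x) = x := by
  have : (ρ g⁻¹ * ρ g) x = x := by rw [← map_mul, inv_mul_cancel, map_one]; rfl
  exact this

theorem rho_apply_inv (ρ : Γ →* Module.End A V) (g : Γ) (x : V) : ρ g (ρ g⁻¹ x) = x := by
  have : (ρ g * ρ g⁻¹) x = x := by rw [← map_mul, mul_inv_cancel, map_one]; rfl
  exact this

theorem rho_mul_apply (ρ : Γ →* Module.End A V) (g h : Γ) (x : V) :
    ρ (g * h) x = ρ g (ρ h x) := by
  rw [map_mul]; rfl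

theorem rho_smul (ρ : Γ →* Module.End A V) (g : Γ) (c : K) (x : V) :
    ρ g (c • x) = c • ρ g x := by
  rw [← algebraMap_smul A c x, map_smul, algebraMap_smul]

theorem chi_ne_zero (χ : Γ →* K) (g : Γ) : χ g ≠ 0 := by
  intro h
  have : χ g * χ g⁻¹ = 1 := by rw [← map_mul, mul_inv_cancel, map_one]
  rw [h, zero_mul] at this
  exact zero_ne_one this

/-- the representation on `V ⧸ S` -/
def quotRep (ρ : Γ →* Module.End A V) (S : Submodule A V) (hS : Stable ρ S) :
    Γ →* Module.End A (V ⧸ S) where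
  toFun g := S.mapQ S (ρ g) (fun x hx => hS g x hx)
  map_one' := by
    ext x
    simp
  map_mul' g h := by
    ext x
    simp

@[simp] theorem quotRep_mk (ρ : Γ →* Module.End A V) (S : Submodule A V) (hS : Stable ρ S)
    (g : Γ) (x : V) :
    quotRep ρ S hS g (Submodule.Quotient.mk x) = Submodule.Quotient.mk (ρ g x) := rfl

theorem isCH_quot {ρ : Γ →* Module.End A V} {χ : Γ →* K} {t : Γ → A} (h : IsCH ρ χ t)
    (S : Submodule A V) (hS : Stable ρ S) : IsCH (quotRep ρ S hS) χ t := by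
  intro g x
  obtain ⟨x, rfl⟩ := Submodule.Quotient.mk_surjective S x
  rw [quotRep_mk, quotRep_mk, ← Submodule.Quotient.mk_smul, ← Submodule.Quotient.mk_smul,
    ← Submodule.Quotient.mk_add, h g x]

instance finite_quot [FiniteDimensional K V] (S : Submodule A V) : FiniteDimensional K (V ⧸ S) :=
  Module.Finite.of_surjective (S.mkQ.restrictScalars K) (Submodule.mkQ_surjective S)

instance finite_sub [FiniteDimensional K V] (S : Submodule A V) : FiniteDimensional K S :=
  inferInstanceAs (FiniteDimensional K (S.restrictScalars K))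

/-- the eigenspace `{x | ρ g x = a • x}` as an `A`-submodule -/
def eig (ρ : Γ →* Module.End A V) (g : Γ) (a : K) : Submodule A V where
  carrier := {x | ρ g x = a • x}
  add_mem' := by
    intro x y hx hy
    show ρ g (x + y) = a • (x + y)
    rw [map_add, smul_add, show ρ g x = a • x from hx, show ρ g y = a • y from hy]
  zero_mem' := by
    show ρ g 0 = a • (0 : V)
    rw [map_zero, smul_zero]
  smul_mem' := by
    intro c x hx
    show ρ g (c • x) = a • c • x
    rw [map_smul, show ρ g x = a • x from hx, smul_comm]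

theorem mem_eig {ρ : Γ →* Module.End A V} {g : Γ} {a : K} {x : V} :
    x ∈ eig ρ g a ↔ ρ g x = a • x := Iff.rfl

/-- `g₀` satisfies `(g₀ - a)(g₀ - b) = 0`, `a ≠ b`, `a b = χ g₀`. -/
structure Split (ρ : Γ →* Module.End A V) (χ : Γ →* K) (g₀ : Γ) (a b : K) : Prop where
  ne : a ≠ b
  mul : a * b = χ g₀
  quad : ∀ x, ρ g₀ (ρ g₀ x) - (a + b) • ρ g₀ x + (a * b) • x = 0

/-- no nonzero `Γ`-stable `A`-submodule on which `Γ` acts commutatively -/
def NoComm (ρ : Γ →* Module.End A V) : Prop :=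
  ∀ S : Submodule A V, Stable ρ S → (∀ g h, ∀ x ∈ S, ρ g (ρ h x) = ρ h (ρ g x)) → S = ⊥

/-- the "diagonal entry": on `eig ρ g₀ a` one has `(g₀ - b) h = al t g₀ b h`. -/
def al (t : Γ → A) (g₀ : Γ) (b : K) (h : Γ) : A := t (g₀ * h) - b • t h

/-- the `A`-linear map `(g₀ - a) ∘ h` (it maps `eig ρ g₀ a` into `eig ρ g₀ b`). -/
def off (ρ : Γ →* Module.End A V) (g₀ : Γ) (a : K) (h : Γ) : V →ₗ[A] V :=
  (ρ g₀ - algebraMap K A a • (1 : Module.End A V)) ∘ₗ ρ h

theorem off_apply (ρ : Γ →* Module.End A V) (g₀ : Γ) (a : K) (h : Γ) (x : V) :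
    off ρ g₀ a h x = ρ g₀ (ρ h x) - a • ρ h x := by
  simp [off]

/-- the scalar by which `off a h' ∘ off b h` acts on `eig ρ g₀ b` -/
def pr (t : Γ → A) (g₀ : Γ) (a b : K) (h' h : Γ) : A :=
  al t g₀ a h' * al t g₀ a h + (a - b) • al t g₀ a (h' * h)

end Fermat.Agent.S15.Lat
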