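/-
S15 / ABS-A: THE INTERFACE between the linear algebra (S15-LAT layers 1, 1.5) and the glue
(Raw + ABS-V dictionary -> `LinIn`;  `LinOut` -> `AOut`).

Everything is `K`-linear and quotient-free: `V` a finite dimensional `K`-vector space,
`ρ : Representation K Γ V`; statements about `V / Vb` are congruences modulo `Vb`.
(`IsStab`, `tOp`, `CH`, `IsLargest` are helper54's definitions, `S15/Lin/Defs.lean`.)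
-/
import Fermat.Agent.S15.Lin.Defs

set_option autoImplicit false

namespace Fermat.Agent.S15.Lat

open Fermat.Agent.S15.Lin (IsStab tOp CH IsLargest)
open Module (finrank)

/-- The input of the linear algebra.  For `K = ℚ_l`, `V = VV G l`, `G = J[l^∞]`, `Γ = GQ`:
`Vm = sub Gm ⊔ sub K0`, `Vw = sub W`, `φ` a Frobenius at `A_l` fixing `μ_{l^∞}`, `φp` a Frobenius at `A_p`,
`g₀` a Frobenius at some `q ≠ p, l`. -/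
structure LinIn (K V Γ : Type*) [Field K] [AddCommGroup V] [Module K V] [Group Γ] where
  ρ : Representation K Γ V
  χ : Γ →* K
  ch : CH ρ χ
  /- at `l` -/
  Vm : Submodule K V
  t_Vm : ∀ g, ∀ v ∈ Vm, tOp ρ χ g v ∈ Vm
  Il : Subgroup Γ
  Il_quot : ∀ σ ∈ Il, ∀ v, ρ σ v - v ∈ Vm
  σ₀ : Γ
  σ₀_mem : σ₀ ∈ Il
  σ₀_ne : χ σ₀ ≠ 1
  φ : Γ
  χ_φ : χ φ = 1
  φ_Vm : ∀ v ∈ Vm, ρ φ v ∈ Vm
  Tl : V →ₗ[K] V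
  Tl_comm : ∀ g v, Tl (ρ g v) = ρ g (Tl v)
  Tl_Vm : ∀ v ∈ Vm, Tl v ∈ Vm
  l : K
  l_ne : l ≠ 1
  es : ∀ v, ρ φ (ρ φ v) - Tl (ρ φ v) + l • v ∈ Vm
  ne1 : ∀ v, Tl v = (1 + l) • v → v = 0
  ne2 : ∀ v, Tl v + (1 + l) • v = 0 → v = 0
  /- at `p` -/
  Ip : Subgroup Γ
  Vw : Submodule K V
  Vw_fix : ∀ σ ∈ Ip, ∀ w ∈ Vw, ρ σ w = w
  Ip_quot : ∀ σ ∈ Ip, ∀ v, ρ σ v - v ∈ Vw
  Vw_inv : ∀ v, (∀ σ ∈ Ip, ρ σ v = v) → v ∈ Vw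
  φp : Γ
  pp : K
  χ_φp : χ φp = pp
  pp_ne : pp ^ 2 ≠ 1
  φp_Vw : ∀ w ∈ Vw, ρ φp w ∈ Vw
  φp_sq : ∀ w ∈ Vw, ρ φp (ρ φp w) = pp ^ 2 • w
  /- global -/
  g₀ : Γ
  ne : ∀ v, tOp ρ χ g₀ v = (1 + χ g₀) • v → v = 0
  mink1 : ∀ Y' Y, IsStab ρ Y' → IsStab ρ Y → Y' ≤ Y → (∀ σ ∈ Ip, ∀ y ∈ Y, ρ σ y - y ∈ Y') →
    (∀ σ ∈ Il, ∀ y ∈ Y, ρ σ y - y ∈ Y') → ∀ g, ∀ y ∈ Y, ρ g y - y ∈ Y'

variable {K V Γ : Type*} [Field K] [AddCommGroup V] [Module K V] [Group Γ]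

/-- the unit root operator `u = Tl - (l / (1 - l)) (t_φ - Tl)` (no Hensel). -/
def LinIn.u (D : LinIn K V Γ) : V →ₗ[K] V :=
  D.Tl - (D.l / (1 - D.l)) • (tOp D.ρ D.χ D.φ - D.Tl)

/-- The output of the linear algebra. -/
structure LinOut (D : LinIn K V Γ) (Vb : Submodule K V) : Prop where
  largest : IsLargest D.ρ D.Vm Vb
  Tl_Vb : ∀ v ∈ Vb, D.Tl v ∈ Vb
  /-- Lemma O -/
  L1 : ∀ σ ∈ D.Il, ∀ v ∈ D.Vm, D.ρ σ v - D.χ σ • v ∈ Vb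
  /-- `φ = u` on `V / Vm` -/
  u_quot : ∀ v, D.ρ D.φ v - D.u v ∈ D.Vm
  /-- `u φ = 1` on `Vm / Vb` -/
  u_Vm : ∀ v ∈ D.Vm, D.u (D.ρ D.φ v) - v ∈ Vb
  /-- `u² - 1` is injective on `V / Vb` -/
  u_sq : ∀ v, D.u (D.u v) - v ∈ Vb → v ∈ Vb
  /-- `t_{g₀} - 1 - χ g₀` is injective on `V / Vb` -/
  ne : ∀ v, tOp D.ρ D.χ D.g₀ v - (1 + D.χ D.g₀) • v ∈ Vb → v ∈ Vb
  dim_Vm : 2 * finrank K D.Vm ≤ finrank K V + finrank K Vb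
  dim_Vw : 2 * finrank K (D.Vw ⊔ Vb : Submodule K V) ≤ finrank K V + finrank K Vb

end Fermat.Agent.S15.Lat
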