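/-
S15-LAT, layer 1.5, part 1: from the `K`-linear data `D : LinIn K V Γ` to the setting of layer 1:
`A := D.alg = K[t_g, Tl] ⊆ End_K V` (commutative), `V` as an `A`-module, `ρ` as `A`-linear representation.
-/
import Fermat.Agent.S15.Lat.Iface
import Fermat.Agent.S15.Lat.Defs

set_option autoImplicit false

namespace Fermat.Agent.S15.Lat

open Fermat.Agent.S15.Lin (IsStab tOp CH IsLargest)
open scoped IsMulCommutative

variable {K V Γ : Type*} [Field K] [AddCommGroup V] [Module K V] [Group Γ]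

namespace LinIn

variable (D : LinIn K V Γ)

/-- the generators `t_g`, `Tl` -/
def gens : Set (Module.End K V) := Set.range (tOp D.ρ D.χ) ∪ {D.Tl}

/-- every generator commutes with `ρ h` (`D.ch`, `D.Tl_comm`). -/
theorem gens_comm_rho : ∀ a ∈ D.gens, ∀ h v, a (D.ρ h v) = D.ρ h (a v) := by
  rintro a (⟨g, rfl⟩ | rfl) h v
  · exact D.ch g h v
  · exact D.Tl_comm h v

/-- `t_h = ρ h + χ h • ρ h⁻¹`, so an operator commuting with all `ρ h` commutes with all `t_h`;
`Tl` commutes with itself. -/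
theorem gens_comm : ∀ a ∈ D.gens, ∀ b ∈ D.gens, a * b = b * a := by
  have key : ∀ a : Module.End K V, (∀ h v, a (D.ρ h v) = D.ρ h (a v)) →
      ∀ g, a * tOp D.ρ D.χ g = tOp D.ρ D.χ g * a := by
    intro a ha g
    ext v
    rw [Module.End.mul_apply, Module.End.mul_apply, Fermat.Agent.S15.Lin.tOp_apply,
      Fermat.Agent.S15.Lin.tOp_apply, map_add, map_smul, ha, ha]
  rintro a ha b (⟨g, rfl⟩ | rfl)
  · exact key a (D.gens_comm_rho a ha) g
  · rcases ha with ⟨g, rfl⟩ | rfl
    · exact (key D.Tl D.Tl_comm g).symm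
    · rfl

/-- `A = K[t_g, Tl]` -/
def alg : Subalgebra K (Module.End K V) := Algebra.adjoin K D.gens

instance : IsMulCommutative D.alg := Algebra.isMulCommutative_adjoin K D.gens_comm

theorem alg_smul (a : D.alg) (v : V) : a • v = (a : Module.End K V) v := rfl

/-- `Algebra.adjoin_induction` -/
theorem alg_comm_rho (a : D.alg) (h : Γ) (v : V) :
    (a : Module.End K V) (D.ρ h v) = D.ρ h ((a : Module.End K V) v) := by
  have key : ∀ x ∈ Algebra.adjoin K D.gens, ∀ h v, x (D.ρ h v) = D.ρ h (x v) := by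
    intro x hx
    induction hx using Algebra.adjoin_induction with
    | mem x hx => exact D.gens_comm_rho x hx
    | algebraMap r =>
      intro h v
      rw [Module.algebraMap_end_apply, Module.algebraMap_end_apply, map_smul]
    | add x y _ _ hx hy =>
      intro h v
      rw [LinearMap.add_apply, LinearMap.add_apply, hx, hy, map_add]
    | mul x y _ _ hx hy =>
      intro h v
      rw [Module.End.mul_apply, Module.End.mul_apply, hy, hx]
  exact key a a.2 h v

/-- `Algebra.adjoin_induction` (`D.t_Vm`, `D.Tl_Vm`) -/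
theorem alg_Vm (a : D.alg) : ∀ v ∈ D.Vm, (a : Module.End K V) v ∈ D.Vm := by
  have key : ∀ x ∈ Algebra.adjoin K D.gens, ∀ v ∈ D.Vm, x v ∈ D.Vm := by
    intro x hx
    induction hx using Algebra.adjoin_induction with
    | mem x hx =>
      rcases hx with ⟨g, rfl⟩ | rfl
      · exact D.t_Vm g
      · exact D.Tl_Vm
    | algebraMap r =>
      intro v hv
      rw [Module.algebraMap_end_apply]
      exact D.Vm.smul_mem r hv
    | add x y _ _ hx hy =>
      intro v hv
      exact D.Vm.add_mem (hx v hv) (hy v hv)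
    | mul x y _ _ hx hy =>
      intro v hv
      exact hx _ (hy v hv)
  exact key a a.2

/-- `a v` is `Ip`-invariant (`alg_comm_rho`, `D.Vw_fix`), so it is in `Vw` (`D.Vw_inv`). -/
theorem alg_Vw (a : D.alg) : ∀ v ∈ D.Vw, (a : Module.End K V) v ∈ D.Vw := by
  intro v hv
  apply D.Vw_inv
  intro σ hσ
  rw [← D.alg_comm_rho a σ v, D.Vw_fix σ hσ v hv]

/-- `ρ` as an `A`-linear representation -/
def rhoA : Γ →* Module.End D.alg V where
  toFun g :=
    { toFun := D.ρ g
      map_add' := map_add _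
      map_smul' := fun a v => (D.alg_comm_rho a g v).symm }
  map_one' := by ext v; simp
  map_mul' g h := by ext v; simp

@[simp] theorem rhoA_apply (g : Γ) (v : V) : D.rhoA g v = D.ρ g v := rfl

/-- `t_g ∈ A` -/
def tA (g : Γ) : D.alg := ⟨tOp D.ρ D.χ g, Algebra.subset_adjoin (Or.inl ⟨g, rfl⟩)⟩

/-- `Tl ∈ A` -/
def TlA : D.alg := ⟨D.Tl, Algebra.subset_adjoin (Or.inr rfl)⟩

@[simp] theorem tA_smul (g : Γ) (v : V) : D.tA g • v = tOp D.ρ D.χ g v := rfl

@[simp] theorem TlA_smul (v : V) : D.TlA • v = D.Tl v := rfl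

theorem isCH : IsCH D.rhoA D.χ D.tA := fun _ _ => rfl

/-- `Vm` as an `A`-submodule -/
def VmA : Submodule D.alg V :=
  { D.Vm with smul_mem' := fun a v hv => D.alg_Vm a v hv }

/-- `Vw` as an `A`-submodule -/
def VwA : Submodule D.alg V :=
  { D.Vw with smul_mem' := fun a v hv => D.alg_Vw a v hv }

@[simp] theorem mem_VmA {v : V} : v ∈ D.VmA ↔ v ∈ D.Vm := Iff.rfl

@[simp] theorem mem_VwA {v : V} : v ∈ D.VwA ↔ v ∈ D.Vw := Iff.rfl

/-- `S = core ρ Vm` -/
def SA : Submodule D.alg V := core D.rhoA D.VmA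

/-- `Vb` -/
def Vb : Submodule K V := D.SA.restrictScalars K

theorem mem_Vb {v : V} : v ∈ D.Vb ↔ ∀ g, D.ρ g v ∈ D.Vm := mem_core

theorem mem_SA {v : V} : v ∈ D.SA ↔ v ∈ D.Vb := Iff.rfl

theorem SA_stable : Stable D.rhoA D.SA := core_stable _ _

theorem SA_le : D.SA ≤ D.VmA := core_le _ _

/-- the unit root operator as an element of `A` -/
def uA : D.alg := D.TlA - (D.l / (1 - D.l)) • (D.tA D.φ - D.TlA)

theorem uA_smul (v : V) : D.uA • v = D.u v := by
  rfl

theorem isLargest_Vb : IsLargest D.ρ D.Vm D.Vb := by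
  refine ⟨fun g y hy => D.SA_stable g y hy, fun v hv => D.SA_le hv, fun Z hZ hle v hv => ?_⟩
  rw [mem_Vb]
  exact fun g => hle (hZ g v hv)

end LinIn

end Fermat.Agent.S15.Lat
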