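/-
S15-LAT, layer 1: the "generalised matrix algebra" identities attached to an element `g₀` with
`(g₀ - a)(g₀ - b) = 0`, `a ≠ b`, `a b = χ g₀`.  All proofs are direct computations.
-/
import Fermat.Agent.S15.Lat.Defs

set_option autoImplicit false
set_option linter.unusedSectionVars false

namespace Fermat.Agent.S15.Lat

open Module

variable {K A V Γ : Type*} [Field K] [CommRing A] [Algebra K A] [AddCommGroup V] [Module K V]
  [Module A V] [IsScalarTower K A V] [Group Γ]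
  {ρ : Γ →* Module.End A V} {χ : Γ →* K} {t : Γ → A} {g₀ : Γ} {a b : K}

theorem Split.symm (h : Split ρ χ g₀ a b) : Split ρ χ g₀ b a := by
  refine ⟨h.ne.symm, by rw [mul_comm, h.mul], fun x => ?_⟩
  rw [add_comm b a, mul_comm b a]
  exact h.quad x

theorem Split.quot (h : Split ρ χ g₀ a b) (S : Submodule A V) (hS : Stable ρ S) :
    Split (quotRep ρ S hS) χ g₀ a b := by
  refine ⟨h.ne, h.mul, fun x => ?_⟩
  obtain ⟨x, rfl⟩ := Submodule.Quotient.mk_surjective S x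
  rw [quotRep_mk, quotRep_mk, ← Submodule.Quotient.mk_smul, ← Submodule.Quotient.mk_smul,
    ← Submodule.Quotient.mk_sub, ← Submodule.Quotient.mk_add, h.quad x, Submodule.Quotient.mk_zero]

theorem Split.sub_mem (h : Split ρ χ g₀ a b) (x : V) : ρ g₀ x - a • x ∈ eig ρ g₀ b := by
  rw [mem_eig, map_sub, rho_smul, ← sub_eq_zero, ← h.quad x]
  module

theorem Split.eq_zero (h : Split ρ χ g₀ a b) {x : V} (ha : x ∈ eig ρ g₀ a) (hb : x ∈ eig ρ g₀ b) :
    x = 0 := by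
  rw [mem_eig] at ha hb
  have h1 : (a - b) • x = 0 := by rw [sub_smul, ← ha, ← hb, sub_self]
  exact (smul_eq_zero.mp h1).resolve_left (sub_ne_zero.mpr h.ne)

theorem GMA_smul_mem (X : Submodule A V) (c : K) {x : V} (hx : x ∈ X) : c • x ∈ X := by
  rw [← algebraMap_smul A c x]
  exact X.smul_mem _ hx

/-- `x = (a - b)⁻¹ (g₀ x - b x) + (b - a)⁻¹ (g₀ x - a x)`; both components stay in every
`g₀`-stable `A`-submodule containing `x`. -/
theorem Split.decomp (h : Split ρ χ g₀ a b) (S : Submodule A V) (hS : ∀ x ∈ S, ρ g₀ x ∈ S)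
    {x : V} (hx : x ∈ S) :
    ∃ xa ∈ eig ρ g₀ a ⊓ S, ∃ xb ∈ eig ρ g₀ b ⊓ S, x = xa + xb := by
  have hab : a - b ≠ 0 := sub_ne_zero.mpr h.ne
  have hba : b - a ≠ 0 := sub_ne_zero.mpr h.ne.symm
  refine ⟨(a - b)⁻¹ • (ρ g₀ x - b • x),
    ⟨GMA_smul_mem _ _ (h.symm.sub_mem x),
      GMA_smul_mem _ _ (S.sub_mem (hS x hx) (GMA_smul_mem _ _ hx))⟩,
    (b - a)⁻¹ • (ρ g₀ x - a • x),
    ⟨GMA_smul_mem _ _ (h.sub_mem x),
      GMA_smul_mem _ _ (S.sub_mem (hS x hx) (GMA_smul_mem _ _ hx))⟩, ?_⟩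
  have h1 : (b - a)⁻¹ = -(a - b)⁻¹ := by
    rw [← neg_sub a b, neg_inv]
  rw [h1]
  have h2 : (a - b)⁻¹ • (ρ g₀ x - b • x) + -(a - b)⁻¹ • (ρ g₀ x - a • x)
      = ((a - b)⁻¹ * (a - b)) • x := by module
  rw [h2, inv_mul_cancel₀ hab, one_smul]

theorem Split.isCompl (h : Split ρ χ g₀ a b) : IsCompl (eig ρ g₀ a) (eig ρ g₀ b) := by
  constructor
  · rw [Submodule.disjoint_def]
    exact fun x ha hb => h.eq_zero ha hb
  · rw [Submodule.codisjoint_iff_exists_add_eq]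
    intro x
    obtain ⟨xa, hxa, xb, hxb, hx⟩ := h.decomp ⊤ (fun _ _ => Submodule.mem_top)
      (Submodule.mem_top (x := x))
    exact ⟨xa, xb, hxa.1, hxb.1, hx.symm⟩

theorem Split.finrank_add [FiniteDimensional K V] (h : Split ρ χ g₀ a b) :
    finrank K (eig ρ g₀ a) + finrank K (eig ρ g₀ b) = finrank K V := by
  have hc : IsCompl ((eig ρ g₀ a).restrictScalars K) ((eig ρ g₀ b).restrictScalars K) := by
    constructor
    · rw [Submodule.disjoint_def]
      exact fun x ha hb => h.eq_zero ha hb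
    · rw [Submodule.codisjoint_iff_exists_add_eq]
      intro x
      obtain ⟨xa, hxa, xb, hxb, hx⟩ := h.decomp ⊤ (fun _ _ => Submodule.mem_top)
        (Submodule.mem_top (x := x))
      exact ⟨xa, xb, hxa.1, hxb.1, hx.symm⟩
  exact Submodule.finrank_add_eq_of_isCompl hc

/-- (CH) for `g₀ h` and for `h`, applied to `x` with `g₀ x = a x` (so `g₀⁻¹ x = a⁻¹ x`,
`χ g₀ a⁻¹ = b`):  `g₀ h x + b χ(h) h⁻¹ x = t(g₀ h) x`, `b h x + b χ(h) h⁻¹ x = b t(h) x`. Subtract. -/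
theorem diag (hch : IsCH ρ χ t) (hs : Split ρ χ g₀ a b) {x : V} (hx : x ∈ eig ρ g₀ a) (h : Γ) :
    ρ g₀ (ρ h x) - b • ρ h x = al t g₀ b h • x := by
  rw [mem_eig] at hx
  have ha : a ≠ 0 := by
    intro h0
    have := hs.mul
    rw [h0, zero_mul] at this
    exact chi_ne_zero χ g₀ this.symm
  -- `χ g₀ • g₀⁻¹ x = b • x`
  have h1 : χ g₀ • ρ g₀⁻¹ x = b • x := by
    have h2 : ρ g₀⁻¹ (a • x) = x := by rw [← hx, rho_inv_apply]
    rw [rho_smul] at h2
    rw [← hs.mul, mul_comm, mul_smul, h2]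
  have e1 := hch (g₀ * h) x
  have e2 := hch h x
  rw [rho_mul_apply, mul_inv_rev, rho_mul_apply, map_mul, mul_comm (χ g₀), mul_smul,
    ← rho_smul, h1, rho_smul] at e1
  unfold al
  rw [sub_smul, ← e1, smul_assoc, ← e2, smul_add, smul_comm b (χ h)]
  abel

theorem off_mem (hs : Split ρ χ g₀ a b) (h : Γ) (x : V) : off ρ g₀ a h x ∈ eig ρ g₀ b := by
  rw [off_apply]
  exact hs.sub_mem (ρ h x)

/-- for `x ∈ eig a`: `(b - a) • h x = off a h x - al b h • x`. -/
theorem smul_rho_eq (hch : IsCH ρ χ t) (hs : Split ρ χ g₀ a b) {x : V} (hx : x ∈ eig ρ g₀ a)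
    (h : Γ) : (b - a) • ρ h x = off ρ g₀ a h x - al t g₀ b h • x := by
  rw [off_apply, ← diag hch hs hx h]
  module

/-- for `y ∈ eig b`: `off b h y = al a h • y + (a - b) • h y`, hence
`off a h' (off b h y) = al a h • (al a h' • y) + (a - b) • al a (h' h) • y`. -/
theorem off_off (hch : IsCH ρ χ t) (hs : Split ρ χ g₀ a b) {y : V} (hy : y ∈ eig ρ g₀ b)
    (h' h : Γ) : off ρ g₀ a h' (off ρ g₀ b h y) = pr t g₀ a b h' h • y := by
  have d := fun k => diag hch hs.symm hy k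
  have h1 : off ρ g₀ b h y = al t g₀ a h • y + (a - b) • ρ h y := by
    rw [off_apply, ← d h]
    module
  have h2 : ∀ (c : K) (z : V), off ρ g₀ a h' (c • z) = c • off ρ g₀ a h' z := by
    intro c z
    rw [← algebraMap_smul A c z, map_smul, algebraMap_smul]
  rw [h1, map_add, map_smul, h2, off_apply, off_apply, d h', ← rho_mul_apply ρ h' h, d (h' * h)]
  unfold pr
  rw [add_smul, mul_smul, smul_assoc, smul_comm (al t g₀ a h)]

end Fermat.Agent.S15.Lat
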