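/-
S15-LAT, layer 1: three dimension lemmas (pure linear algebra over a field `K`, with a commutative
`K`-algebra `A` acting).  Everything happens inside one ambient module `V`; "relative" statements
(`X' ≤ X`, `Y' ≤ Y`) replace quotient modules.
-/
import Fermat.Agent.S15.Lat.Defs

set_option autoImplicit false

namespace Fermat.Agent.S15.Lat

open Module

/-- the common core of LA0 and LA2, over the field. -/
theorem LinAlg0_core {K V : Type*} [Field K] [AddCommGroup V] [Module K V] [FiniteDimensional K V]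
    (X X' Y Y' : Submodule K V) (hX : X' ≤ X) (hY : Y' ≤ Y)
    (f : V →ₗ[K] V) (hf : ∀ x ∈ X, f x ∈ Y) (hinj : ∀ x ∈ X, f x ∈ Y' → x ∈ X') :
    finrank K X + finrank K Y' ≤ finrank K Y + finrank K X' ∧
      (finrank K Y + finrank K X' ≤ finrank K X + finrank K Y' → Y ≤ X.map f ⊔ Y') := by
  set P : Submodule K Y := Y'.comap Y.subtype with hP
  set Q : Submodule K X := X'.comap X.subtype with hQ
  set h : X →ₗ[K] (Y ⧸ P) := P.mkQ ∘ₗ f.restrict hf with hh
  have hPr : finrank K P = finrank K Y' := (Submodule.comapSubtypeEquivOfLe hY).finrank_eq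
  have hQr : finrank K Q = finrank K X' := (Submodule.comapSubtypeEquivOfLe hX).finrank_eq
  have hker : LinearMap.ker h ≤ Q := by
    intro x hx
    rw [LinearMap.mem_ker, hh, LinearMap.comp_apply, Submodule.mkQ_apply,
      Submodule.Quotient.mk_eq_zero] at hx
    exact hinj x x.2 hx
  have h1 := LinearMap.finrank_range_add_finrank_ker h
  have h2 := Submodule.finrank_quotient_add_finrank P
  have h3 : finrank K (LinearMap.ker h) ≤ finrank K Q := Submodule.finrank_mono hker
  have h4 : finrank K (LinearMap.range h) ≤ finrank K (Y ⧸ P) := Submodule.finrank_le _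
  refine ⟨by omega, fun hle => ?_⟩
  have h5 : finrank K (LinearMap.range h) = finrank K (Y ⧸ P) := by omega
  have h6 : LinearMap.range h = ⊤ := Submodule.eq_top_of_finrank_eq h5
  intro y hy
  have h7 : P.mkQ ⟨y, hy⟩ ∈ LinearMap.range h := by rw [h6]; exact Submodule.mem_top
  obtain ⟨x, hx⟩ := h7
  rw [hh, LinearMap.comp_apply, Submodule.mkQ_apply, Submodule.mkQ_apply,
    Submodule.Quotient.eq] at hx
  have h8 : f x - y ∈ Y' := hx
  have h9 : y = f x + -(f x - y) := by abel
  rw [h9]
  exact Submodule.add_mem_sup (Submodule.mem_map_of_mem x.2) (Y'.neg_mem h8)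

variable {K A V : Type*} [Field K] [CommRing A] [Algebra K A] [AddCommGroup V] [Module K V]
  [Module A V] [IsScalarTower K A V] [FiniteDimensional K V]

/-- LA0. `f` induces an injection `X / X' → Y / Y'`.
Proof: `g := Y'.mkQ ∘ f ∘ X.subtype : X → V ⧸ Y'` (restrict scalars to `K`), its range lies in the image
of `Y`, of dimension `finrank Y - finrank Y'`; its kernel is contained in (the copy in `X` of) `X'`;
rank-nullity. -/
theorem finrank_rel_le_of_inj (X X' Y Y' : Submodule A V) (hX : X' ≤ X) (hY : Y' ≤ Y)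
    (f : V →ₗ[A] V) (hf : ∀ x ∈ X, f x ∈ Y) (hinj : ∀ x ∈ X, f x ∈ Y' → x ∈ X') :
    finrank K X + finrank K Y' ≤ finrank K Y + finrank K X' :=
  (LinAlg0_core (X.restrictScalars K) (X'.restrictScalars K) (Y.restrictScalars K)
    (Y'.restrictScalars K) hX hY (f.restrictScalars K) hf hinj).1

/-- LA2. An injection `X / X' → Y / Y'` with `dim Y / Y' ≤ dim X / X'` is onto. -/
theorem le_map_sup_of_finrank (X X' Y Y' : Submodule A V) (hX : X' ≤ X) (hY : Y' ≤ Y)
    (f : V →ₗ[A] V) (hf : ∀ x ∈ X, f x ∈ Y) (hf' : ∀ x ∈ X', f x ∈ Y')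
    (hinj : ∀ x ∈ X, f x ∈ Y' → x ∈ X')
    (hle : finrank K Y + finrank K X' ≤ finrank K X + finrank K Y') :
    Y ≤ X.map f ⊔ Y' := by
  intro y hy
  have h := (LinAlg0_core (X.restrictScalars K) (X'.restrictScalars K) (Y.restrictScalars K)
    (Y'.restrictScalars K) hX hY (f.restrictScalars K) hf hinj).2 hle hy
  obtain ⟨a, ha, b, hb, rfl⟩ := Submodule.mem_sup.1 h
  obtain ⟨x, hx, rfl⟩ := Submodule.mem_map.1 ha
  exact Submodule.add_mem_sup (Submodule.mem_map_of_mem hx) hb

end Fermat.Agent.S15.Lat
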