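/-
S15-LAT, layer 1: three dimension lemmas (pure linear algebra over a field `K`, with a commutative
`K`-algebra `A` acting).  Everything happens inside one ambient module `V`; "relative" statements
(`X' ≤ X`, `Y' ≤ Y`) replace quotient modules.
-/
import Fermat.Agent.S15.Lat.LinAlg0

set_option autoImplicit false

namespace Fermat.Agent.S15.Lat

open Module

variable {K A V : Type*} [Field K] [CommRing A] [Algebra K A] [AddCommGroup V] [Module K V]
  [Module A V] [IsScalarTower K A V] [FiniteDimensional K V]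

/-- `a`-power torsion of `X` relative to `X'`. -/
def LinAlg_powTor (a : A) (X X' : Submodule A V) : Submodule A V where
  carrier := {x | x ∈ X ∧ ∃ n : ℕ, a ^ n • x ∈ X'}
  zero_mem' := ⟨X.zero_mem, 0, by simp⟩
  add_mem' := by
    rintro x y ⟨hx, n, hn⟩ ⟨hy, m, hm⟩
    refine ⟨X.add_mem hx hy, n + m, ?_⟩
    rw [smul_add]
    refine X'.add_mem ?_ ?_
    · rw [pow_add, mul_comm, mul_smul]; exact X'.smul_mem _ hn
    · rw [pow_add, mul_smul]; exact X'.smul_mem _ hm
  smul_mem' := by
    rintro r x ⟨hx, n, hn⟩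
    refine ⟨X.smul_mem r hx, n, ?_⟩
    rw [smul_comm]; exact X'.smul_mem r hn

theorem LinAlg_finrank_mono {X' X : Submodule A V} (h : X' ≤ X) :
    finrank K X' ≤ finrank K X := by
  haveI : FiniteDimensional K X := inferInstanceAs (FiniteDimensional K (X.restrictScalars K))
  exact LinearMap.finrank_le_finrank_of_injective
    (f := (Submodule.inclusion h).restrictScalars K) (Submodule.inclusion_injective h)

theorem LinAlg_finrank_lt {X' X : Submodule A V} (h : X' < X) :
    finrank K X' < finrank K X := by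
  have h2 : X'.restrictScalars K < X.restrictScalars K := by
    obtain ⟨x, hx, hx'⟩ := SetLike.exists_of_lt h
    exact lt_of_le_not_ge (fun z hz => h.le hz) (fun hcon => hx' (hcon hx))
  exact Submodule.finrank_lt_finrank_of_lt h2

/-- LA1 (relative form).  `A`-linear maps `c i : X → Y`, `b j : Y → X` (respecting `X'`, `Y'`) such that
every composite `b j ∘ c i` is the multiplication by a scalar `a j i ∈ A` on `X`, and such that the
scalars `a j i` have no common "kernel" on `X / X'`.  Then `dim X / X' ≤ dim Y / Y'`.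

Proof: strong induction on `finrank K X`.  If `X = X'` the claim is `finrank Y' ≤ finrank Y`.
Otherwise choose an `A`-submodule `S` with `X' < S ≤ X` of minimal dimension, `x ∈ S \ X'`, and
`j, i` with `a • x ∉ X'`, `a := a j i`.  `{s ∈ S | a • s ∈ X'}` is an `A`-submodule between `X'` and
`S`, `≠ S`, hence `= X'` (minimality): `(*) s ∈ S, a • s ∈ X' → s ∈ X'`.
Put `X₀ := {x ∈ X | ∃ n, a ^ n • x ∈ X'}`, `Y₀ := {y ∈ Y | ∃ n, a ^ n • y ∈ Y'}` (`A`-submodules,
`X' ≤ X₀ ≤ X`, `Y' ≤ Y₀ ≤ Y`).  By `(*)` and induction on `n`, `S ⊓ X₀ = X'`, so `X₀ ≠ X`,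
`finrank X₀ < finrank X`.  All `c i'` map `X₀` to `Y₀`, all `b j'` map `Y₀` to `X₀`; the induction
hypothesis for `(X₀, X', Y₀, Y')` gives `finrank X₀ + finrank Y' ≤ finrank Y₀ + finrank X'`.
`c i` induces an injection `X / X₀ → Y / Y₀`: if `a ^ n • c i x ∈ Y'` then
`a ^ (n+1) • x = b j (a ^ n • c i x) ∈ X'`; so LA0 gives
`finrank X + finrank Y₀ ≤ finrank Y + finrank X₀`.  Add. -/
theorem finrank_rel_le {ι κ : Type*} (X X' Y Y' : Submodule A V) (hX : X' ≤ X) (hY : Y' ≤ Y)
    (c : ι → V →ₗ[A] V) (b : κ → V →ₗ[A] V) (a : κ → ι → A)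
    (hc : ∀ i, ∀ x ∈ X, c i x ∈ Y) (hc' : ∀ i, ∀ x ∈ X', c i x ∈ Y')
    (hb : ∀ j, ∀ y ∈ Y, b j y ∈ X) (hb' : ∀ j, ∀ y ∈ Y', b j y ∈ X')
    (hba : ∀ j i, ∀ x ∈ X, b j (c i x) = a j i • x)
    (hnd : ∀ x ∈ X, (∀ j i, a j i • x ∈ X') → x ∈ X') :
    finrank K X + finrank K Y' ≤ finrank K Y + finrank K X' := by
  classical
  induction hn : finrank K X using Nat.strong_induction_on generalizing X X' Y Y' with
  | _ n ih =>
    by_cases hXX : X ≤ X'
    · have hE : X = X' := le_antisymm hXX hX
      subst hE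
      have := LinAlg_finrank_mono (K := K) hY
      omega
    · haveI : IsArtinian A V := isArtinian_of_tower K inferInstance
      obtain ⟨S, ⟨hS1, hS2⟩, hSmin⟩ := IsArtinian.set_has_minimal
        {S : Submodule A V | X' < S ∧ S ≤ X} ⟨X, lt_of_le_not_ge hX hXX, le_rfl⟩
      obtain ⟨x, hxS, hxX'⟩ := SetLike.exists_of_lt hS1
      have hex : ∃ j i, a j i • x ∉ X' := by
        by_contra hcon
        push Not at hcon
        exact hxX' (hnd x (hS2 hxS) hcon)
      obtain ⟨j, i, hji⟩ := hex
      have hstar : ∀ s ∈ S, a j i • s ∈ X' → s ∈ X' := by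
        let T : Submodule A V := S ⊓ X'.comap (LinearMap.lsmul A V (a j i))
        have hT1 : X' ≤ T := fun z hz => ⟨hS1.le hz, X'.smul_mem (a j i) hz⟩
        have hT2 : T ≤ S := inf_le_left
        have hT3 : T ≠ S := fun h => hji ((h ▸ hxS : x ∈ T).2)
        have hT4 : ¬ X' < T := fun h => hSmin T ⟨h, hT2.trans hS2⟩ (lt_of_le_of_ne hT2 hT3)
        have hT5 : T ≤ X' := by
          by_contra hcon
          exact hT4 (lt_of_le_not_ge hT1 hcon)
        intro s hs hαs
        exact hT5 ⟨hs, hαs⟩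
      have hstar' : ∀ m : ℕ, ∀ s ∈ S, a j i ^ m • s ∈ X' → s ∈ X' := by
        intro m
        induction m with
        | zero => intro s _ h; simpa using h
        | succ m ihm =>
          intro s hs h
          apply ihm s hs
          apply hstar _ (S.smul_mem _ hs)
          rw [← mul_smul, ← pow_succ']
          exact h
      have hX₀X : LinAlg_powTor (a j i) X X' ≤ X := fun z hz => hz.1
      have hX'X₀ : X' ≤ LinAlg_powTor (a j i) X X' := fun z hz => ⟨hX hz, 0, by simpa using hz⟩
      have hY₀Y : LinAlg_powTor (a j i) Y Y' ≤ Y := fun z hz => hz.1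
      have hY'Y₀ : Y' ≤ LinAlg_powTor (a j i) Y Y' := fun z hz => ⟨hY hz, 0, by simpa using hz⟩
      have hx₀ : x ∉ LinAlg_powTor (a j i) X X' := by
        rintro ⟨_, m, hm⟩
        exact hxX' (hstar' m x hxS hm)
      have hlt : LinAlg_powTor (a j i) X X' < X :=
        lt_of_le_of_ne hX₀X (fun h => hx₀ (by rw [h]; exact hS2 hxS))
      have hlt' := LinAlg_finrank_lt (K := K) hlt
      have IH := ih (finrank K (LinAlg_powTor (a j i) X X')) (hn ▸ hlt')
        (LinAlg_powTor (a j i) X X') X' (LinAlg_powTor (a j i) Y Y') Y' hX'X₀ hY'Y₀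
        (by
          rintro i' z ⟨hz, m, hm⟩
          refine ⟨hc i' z hz, m, ?_⟩
          rw [← map_smul]
          exact hc' i' _ hm)
        hc'
        (by
          rintro j' z ⟨hz, m, hm⟩
          refine ⟨hb j' z hz, m, ?_⟩
          rw [← map_smul]
          exact hb' j' _ hm)
        hb'
        (fun j' i' z hz => hba j' i' z hz.1)
        (fun z hz h => hnd z hz.1 h)
        rfl
      have INJ := finrank_rel_le_of_inj (K := K) X (LinAlg_powTor (a j i) X X') Y
        (LinAlg_powTor (a j i) Y Y') hX₀X hY₀Y (c i) (hc i)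
        (by
          rintro z hz ⟨_, m, hm⟩
          refine ⟨hz, m + 1, ?_⟩
          have h1 := hb' j _ hm
          rw [map_smul, hba j i z hz, ← mul_smul, ← pow_succ] at h1
          exact h1)
      omega

end Fermat.Agent.S15.Lat
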