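/-
S15-LAT, layer 1: (A6) HALF.  In the situation of `GMA.lean`, if there is no commutative stable
submodule then the two eigenspaces of `g₀` have the same dimension.
-/
import Fermat.Agent.S15.Lat.GMA
import Fermat.Agent.S15.Lat.LinAlg

set_option autoImplicit false

namespace Fermat.Agent.S15.Lat

open Module

variable {K A V Γ : Type*} [Field K] [CommRing A] [Algebra K A] [AddCommGroup V] [Module K V]
  [Module A V] [IsScalarTower K A V] [Group Γ]
  {ρ : Γ →* Module.End A V} {χ : Γ →* K} {t : Γ → A} {g₀ : Γ} {a b : K}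

/-- `S₁ := {x ∈ eig a | ∀ h, off a h x = 0}` is an `A`-submodule; for `x ∈ S₁`,
`h x = (a - b)⁻¹ • al b h • x` (`smul_rho_eq`), so `S₁` is stable and `Γ` acts on it through scalars of
`A`, in particular commutatively. So `S₁ = ⊥`. -/
theorem eq_zero_of_off (hch : IsCH ρ χ t) (hs : Split ρ χ g₀ a b) (hnc : NoComm ρ) {x : V}
    (hx : x ∈ eig ρ g₀ a) (h0 : ∀ h, off ρ g₀ a h x = 0) : x = 0 := by
  have hne : a - b ≠ 0 := sub_ne_zero.2 hs.ne
  -- the submodule `S₁`
  let S₁ : Submodule A V := eig ρ g₀ a ⊓ ⨅ h, LinearMap.ker (off ρ g₀ a h)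
  have hmem : ∀ z, z ∈ S₁ ↔ z ∈ eig ρ g₀ a ∧ ∀ h, off ρ g₀ a h z = 0 := by
    intro z
    simp only [S₁, Submodule.mem_inf, Submodule.mem_iInf, LinearMap.mem_ker]
  have hact : ∀ z ∈ S₁, ∀ h, ρ h z = (algebraMap K A (a - b)⁻¹ * al t g₀ b h) • z := by
    intro z hz h
    obtain ⟨hz1, hz2⟩ := (hmem z).1 hz
    have h1 := smul_rho_eq hch hs hz1 h
    rw [hz2 h, zero_sub] at h1
    have h2 : (a - b) • ρ h z = al t g₀ b h • z := by
      have e : (a - b) • ρ h z = -((b - a) • ρ h z) := by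
        rw [← neg_smul, neg_sub]
      rw [e, h1, neg_neg]
    rw [mul_smul, algebraMap_smul, ← h2, smul_smul, inv_mul_cancel₀ hne, one_smul]
  have hstab : Stable ρ S₁ := by
    intro h z hz
    rw [hact z hz h]
    exact S₁.smul_mem _ hz
  have hcomm : ∀ g h, ∀ z ∈ S₁, ρ g (ρ h z) = ρ h (ρ g z) := by
    intro g h z hz
    rw [hact z hz h, hact z hz g, map_smul, map_smul, hact z hz h, hact z hz g, smul_comm]
  have hbot := hnc S₁ hstab hcomm
  have hxS : x ∈ S₁ := (hmem x).2 ⟨hx, h0⟩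
  rw [hbot] at hxS
  exact (Submodule.mem_bot A).1 hxS

/-- `off b h y ∈ eig a` is killed by all `off a h'` (`off_off`), so it is `0` by `eq_zero_of_off`;
then `y = 0` by `eq_zero_of_off` for `hs.symm`. -/
theorem eq_zero_of_pr (hch : IsCH ρ χ t) (hs : Split ρ χ g₀ a b) (hnc : NoComm ρ) {y : V}
    (hy : y ∈ eig ρ g₀ b) (h0 : ∀ h' h, pr t g₀ a b h' h • y = 0) : y = 0 := by
  refine eq_zero_of_off hch hs.symm hnc hy fun h => ?_
  refine eq_zero_of_off hch hs hnc (off_mem hs.symm h y) fun h' => ?_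
  rw [off_off hch hs hy h' h]
  exact h0 h' h

/-- `V[𝔅] = 0`.  `P := {x | ∀ h' h, pr .. h' h • x = 0}` is a stable `A`-submodule. By `Split.decomp` and
`eq_zero_of_pr`, `P ≤ eig a`. For `x ∈ P`, `h x ∈ P ≤ eig a`, so `off a h x = 0`; `eq_zero_of_off`. -/
theorem eq_zero_of_pr' (hch : IsCH ρ χ t) (hs : Split ρ χ g₀ a b) (hnc : NoComm ρ) {x : V}
    (h0 : ∀ h' h, pr t g₀ a b h' h • x = 0) : x = 0 := by
  let P : Submodule A V := ⨅ h', ⨅ h, LinearMap.ker (LinearMap.lsmul A V (pr t g₀ a b h' h))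
  have hmem : ∀ z, z ∈ P ↔ ∀ h' h, pr t g₀ a b h' h • z = 0 := by
    intro z
    simp only [P, Submodule.mem_iInf, LinearMap.mem_ker, LinearMap.lsmul_apply]
  have hstab : Stable ρ P := by
    intro g z hz
    rw [hmem] at hz ⊢
    intro h' h
    rw [← map_smul, hz h' h, map_zero]
  have hle : P ≤ eig ρ g₀ a := by
    intro z hz
    obtain ⟨za, hza, zb, hzb, rfl⟩ := hs.decomp P (hstab g₀) hz
    have hzb0 : zb = 0 := eq_zero_of_pr hch hs hnc hzb.1 ((hmem zb).1 hzb.2)
    rw [hzb0, add_zero]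
    exact hza.1
  have hxP : x ∈ P := (hmem x).2 h0
  refine eq_zero_of_off hch hs hnc (hle hxP) fun h => ?_
  rw [off_apply, mem_eig.1 (hle (hstab h x hxP)), sub_self]

/-- `finrank_rel_le` with `X = eig b`, `Y = eig a`, `X' = Y' = ⊥`, `c h = off b h`, `b h' = off a h'`,
`a h' h = pr t g₀ a b h' h`. -/
theorem finrank_eig_le [FiniteDimensional K V] (hch : IsCH ρ χ t) (hs : Split ρ χ g₀ a b)
    (hnc : NoComm ρ) : finrank K (eig ρ g₀ b) ≤ finrank K (eig ρ g₀ a) := by
  have h := finrank_rel_le (K := K) (eig ρ g₀ b) ⊥ (eig ρ g₀ a) ⊥ bot_le bot_le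
    (fun h => off ρ g₀ b h) (fun h' => off ρ g₀ a h') (fun h' h => pr t g₀ a b h' h)
    (fun h x _ => off_mem hs.symm h x)
    (fun h x hx => by
      rw [(Submodule.mem_bot A).1 hx, map_zero]
      exact Submodule.zero_mem _)
    (fun h' y _ => off_mem hs h' y)
    (fun h' y hy => by
      rw [(Submodule.mem_bot A).1 hy, map_zero]
      exact Submodule.zero_mem _)
    (fun h' h x hx => off_off hch hs hx h' h)
    (fun x hx h0 => by
      rw [Submodule.mem_bot]
      exact eq_zero_of_pr hch hs hnc hx fun h' h => (Submodule.mem_bot A).1 (h0 h' h))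
  have h0 : finrank K (⊥ : Submodule A V) = 0 := Module.finrank_zero_of_subsingleton
  rw [h0, add_zero, add_zero] at h
  exact h

theorem finrank_eig_eq [FiniteDimensional K V] (hch : IsCH ρ χ t) (hs : Split ρ χ g₀ a b)
    (hnc : NoComm ρ) : finrank K (eig ρ g₀ a) = finrank K (eig ρ g₀ b) :=
  le_antisymm (finrank_eig_le hch hs.symm hnc) (finrank_eig_le hch hs hnc)

theorem two_mul_finrank_eig [FiniteDimensional K V] (hch : IsCH ρ χ t) (hs : Split ρ χ g₀ a b)
    (hnc : NoComm ρ) : 2 * finrank K (eig ρ g₀ b) = finrank K V := by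
  have h1 := finrank_eig_eq hch hs hnc
  have h2 := hs.finrank_add
  omega

end Fermat.Agent.S15.Lat
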