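/-
S15-LAT, layer 1: (A7), the part which is needed after ABS-B v2: on the reduced module,
`(φ_p² - 1)(φ_p² - p²) = 0` and `dim W1 ≤ dim / 2`.
-/
import Fermat.Agent.S15.Lat.Half

set_option autoImplicit false

namespace Fermat.Agent.S15.Lat

open Module

variable {K A V Γ : Type*} [Field K] [CommRing A] [Algebra K A] [AddCommGroup V] [Module K V]
  [Module A V] [IsScalarTower K A V] [Group Γ]
  {ρ : Γ →* Module.End A V} {χ : Γ →* K} {t : Γ → A}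

/-- AP1.  On a stable submodule `S` on which `g₀` is the scalar `b`:  (CH) for `g₀ h` and `h` at `x ∈ S`
(`h x ∈ S`, `g₀⁻¹ x = b⁻¹ x`, `χ g₀ b⁻¹ = a`):  `b h x + a χ(h) h⁻¹ x = t (g₀ h) x`,
`a h x + a χ(h) h⁻¹ x = a t(h) x`; so `(b - a) • h x = al t g₀ a h • x`: `Γ` acts through scalars of `A`. -/
theorem comm_of_scalar (hch : IsCH ρ χ t) {g₀ : Γ} {a b : K} (hab : a * b = χ g₀) (hne : a ≠ b)
    (S : Submodule A V) (hS : Stable ρ S) (hb : ∀ x ∈ S, ρ g₀ x = b • x) :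
    ∀ g h, ∀ x ∈ S, ρ g (ρ h x) = ρ h (ρ g x) := by
  have hb0 : b ≠ 0 := by
    rintro rfl
    rw [mul_zero] at hab
    exact chi_ne_zero χ g₀ hab.symm
  have hba : b - a ≠ 0 := sub_ne_zero.2 hne.symm
  have hinv : ∀ x ∈ S, ρ g₀⁻¹ x = b⁻¹ • x := by
    intro x hx
    have h1 : ρ g₀⁻¹ (ρ g₀ x) = x := rho_inv_apply ρ g₀ x
    rw [hb x hx, rho_smul] at h1
    conv_rhs => rw [← h1]
    rw [smul_smul, inv_mul_cancel₀ hb0, one_smul]
  have key : ∀ h, ∀ x ∈ S, ρ h x = (b - a)⁻¹ • (al t g₀ a h • x) := by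
    intro h x hx
    have h1 := hch (g₀ * h) x
    rw [rho_mul_apply, hb _ (hS h x hx), mul_inv_rev, rho_mul_apply, hinv x hx, rho_smul,
      map_mul, ← hab] at h1
    have h2 := hch h x
    have h3 : (b - a) • ρ h x = al t g₀ a h • x := by
      rw [al, sub_smul, sub_smul, ← h1, smul_assoc, ← h2, smul_add, smul_smul, smul_smul]
      have : a * b * χ h * b⁻¹ = a * χ h := by field_simp
      rw [this]
      abel
    rw [← h3, smul_smul, inv_mul_cancel₀ hba, one_smul]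
  intro g h x hx
  rw [key g _ (hS h x hx), key h x hx, key h _ (hS g x hx), key g x hx]
  simp only [← algebraMap_smul A ((b - a)⁻¹), smul_smul]
  congr 1
  ring

/-- AP2 (on the BIG module).  `f := t φ ^ 2 - (pp + 1) ^ 2` kills `Vw`
(on `Vw`: `φ⁻¹ x = pp⁻² φ x`, `t φ x = (1 + pp⁻¹) φ x`, `t φ (t φ x) = (1 + pp⁻¹)² pp² x`);
so for `σ ∈ Ip`: `σ (f x) - f x = f (σ x - x) = 0`, and `f x ∈ V^{Ip} ≤ Vw`. -/
theorem f_smul_mem (hch : IsCH ρ χ t) (Vw : Submodule A V) (Ip : Set Γ)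
    (hIp : ∀ σ ∈ Ip, ∀ x, ρ σ x - x ∈ Vw) (hinv : ∀ x, (∀ σ ∈ Ip, ρ σ x = x) → x ∈ Vw)
    {φ : Γ} {pp : K} (hχ : χ φ = pp) (hφW : ∀ x ∈ Vw, ρ φ x ∈ Vw)
    (hφ2 : ∀ x ∈ Vw, ρ φ (ρ φ x) = pp ^ 2 • x) (x : V) :
    (t φ * t φ - algebraMap K A ((pp + 1) ^ 2)) • x ∈ Vw := by
  have hpp0 : pp ≠ 0 := hχ ▸ chi_ne_zero χ φ
  have h1 : ∀ y ∈ Vw, pp • (t φ • y) = (pp + 1) • ρ φ y := by
    intro y hy
    have e1 : ρ φ⁻¹ (ρ φ (ρ φ y)) = ρ φ y := rho_inv_apply ρ φ _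
    rw [hφ2 y hy, rho_smul] at e1
    rw [← hch φ y, hχ, smul_add, smul_smul, ← pow_two, e1, add_smul, one_smul]
  have hkill : ∀ y ∈ Vw, (t φ * t φ - algebraMap K A ((pp + 1) ^ 2)) • y = 0 := by
    intro y hy
    have e2 : (pp ^ 2) • (t φ • t φ • y) = (pp ^ 2) • ((pp + 1) ^ 2 • y) := by
      have e3 : (pp ^ 2) • (t φ • t φ • y) = pp • (t φ • (pp • (t φ • y))) := by
        rw [pow_two, mul_smul, smul_comm (t φ) pp (t φ • y)]
      rw [e3, h1 y hy, smul_comm (t φ) (pp + 1), smul_comm pp (pp + 1), h1 _ (hφW y hy),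
        hφ2 y hy, smul_smul, smul_smul, smul_smul]
      congr 1
      ring
    have e4 : t φ • t φ • y = (pp + 1) ^ 2 • y := by
      have e5 := congrArg (fun z => (pp ^ 2)⁻¹ • z) e2
      rwa [smul_smul, smul_smul ((pp ^ 2)⁻¹) (pp ^ 2), inv_mul_cancel₀ (pow_ne_zero 2 hpp0),
        one_smul, one_smul] at e5
    rw [sub_smul, mul_smul, e4, algebraMap_smul, sub_self]
  apply hinv
  intro σ hσ
  have := hkill _ (hIp σ hσ x)
  rw [smul_sub, sub_eq_zero] at this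
  rw [map_smul, this]

/-- AP3 (on the REDUCED module).  `S := {f • x}` is a stable `A`-submodule of `W1`, on which `g₀ = φ²` is the
scalar `pp²`; by AP1 (`a = 1`, `b = pp²`, `χ (φ φ) = pp²`) and `hnc`, `S = ⊥`: `f = 0`.
`φ² (t φ)² = φ⁴ + 2 pp φ² + pp²`, so `φ⁴ - (1 + pp²) φ² + pp² = φ² f = 0`. -/
theorem split_at_p (hch : IsCH ρ χ t) (hnc : NoComm ρ) (W1 : Submodule A V) {φ : Γ} {pp : K}
    (hχ : χ φ = pp) (hpp : pp ^ 2 ≠ 1) (hφ2 : ∀ x ∈ W1, ρ φ (ρ φ x) = pp ^ 2 • x)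
    (hf : ∀ x, (t φ * t φ - algebraMap K A ((pp + 1) ^ 2)) • x ∈ W1) :
    Split ρ χ (φ * φ) 1 (pp ^ 2) := by
  have hmul : (1 : K) * pp ^ 2 = χ (φ * φ) := by
    rw [map_mul, hχ, one_mul, pow_two]
  have hS : Stable ρ (LinearMap.range
      (LinearMap.lsmul A V (t φ * t φ - algebraMap K A ((pp + 1) ^ 2)))) := by
    rintro g _ ⟨x, rfl⟩
    exact ⟨ρ g x, by simp⟩
  have hbot := hnc _ hS (comm_of_scalar hch hmul (Ne.symm hpp) _ hS (by
    rintro _ ⟨x, rfl⟩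
    rw [rho_mul_apply]
    exact hφ2 _ (hf x)))
  have hf0 : ∀ x : V, t φ • t φ • x = (pp + 1) ^ 2 • x := by
    intro x
    have h1 : (t φ * t φ - algebraMap K A ((pp + 1) ^ 2)) • x ∈ LinearMap.range
      (LinearMap.lsmul A V (t φ * t φ - algebraMap K A ((pp + 1) ^ 2))) := ⟨x, rfl⟩
    rw [hbot, Submodule.mem_bot, sub_smul, mul_smul, algebraMap_smul, sub_eq_zero] at h1
    exact h1
  refine ⟨Ne.symm hpp, hmul, fun z => ?_⟩
  have h2 := hf0 (ρ φ (ρ φ z))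
  rw [← hch φ (ρ φ (ρ φ z)), rho_inv_apply, smul_add, ← hch φ (ρ φ (ρ φ (ρ φ z))), rho_inv_apply,
    smul_comm (t φ) (χ φ), ← hch φ (ρ φ z), rho_inv_apply, hχ] at h2
  rw [rho_mul_apply, rho_mul_apply]
  have h3 : ρ φ (ρ φ (ρ φ (ρ φ z))) = (pp + 1) ^ 2 • ρ φ (ρ φ z) - pp • ρ φ (ρ φ z)
      - pp • (ρ φ (ρ φ z) + pp • z) := by
    rw [← h2]
    abel
  rw [h3, smul_add, smul_smul]
  have h4 : (pp + 1) ^ 2 • ρ φ (ρ φ z) = (pp ^ 2) • ρ φ (ρ φ z) + pp • ρ φ (ρ φ z)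
      + pp • ρ φ (ρ φ z) + ρ φ (ρ φ z) := by
    have : (pp + 1) ^ 2 = pp ^ 2 + pp + pp + 1 := by ring
    rw [this, add_smul, add_smul, add_smul, one_smul]
  rw [h4, add_smul, one_smul, one_mul, pow_two]
  abel

/-- AP4.  `W1 ≤ eig ρ (φ φ) (pp²)` and `two_mul_finrank_eig`. -/
theorem two_mul_finrank_le_at_p [FiniteDimensional K V] (hch : IsCH ρ χ t) (hnc : NoComm ρ)
    (W1 : Submodule A V) {φ : Γ} {pp : K} (hχ : χ φ = pp) (hpp : pp ^ 2 ≠ 1)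
    (hφ2 : ∀ x ∈ W1, ρ φ (ρ φ x) = pp ^ 2 • x)
    (hf : ∀ x, (t φ * t φ - algebraMap K A ((pp + 1) ^ 2)) • x ∈ W1) :
    2 * finrank K W1 ≤ finrank K V := by
  have hs := split_at_p hch hnc W1 hχ hpp hφ2 hf
  have hle : W1 ≤ eig ρ (φ * φ) (pp ^ 2) := by
    intro x hx
    rw [mem_eig, rho_mul_apply]
    exact hφ2 x hx
  have h1 : finrank K W1 ≤ finrank K (eig ρ (φ * φ) (pp ^ 2)) :=
    LinearMap.finrank_le_finrank_of_injective
      (f := (Submodule.inclusion hle).restrictScalars K) (Submodule.inclusion_injective hle)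
  have h2 := two_mul_finrank_eig hch hs hnc
  omega

end Fermat.Agent.S15.Lat
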