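/-
S15-LAT, layer 1: (★) and Lemma O on the reduced module (`core ρ X = ⊥`).
-/
import Fermat.Agent.S15.Lat.GMA

set_option autoImplicit false

namespace Fermat.Agent.S15.Lat

variable {K A V Γ : Type*} [Field K] [CommRing A] [Algebra K A] [AddCommGroup V] [Module K V]
  [Module A V] [IsScalarTower K A V] [Group Γ]
  {ρ : Γ →* Module.End A V} {χ : Γ →* K} {t : Γ → A} {X : Submodule A V}

/-- `K`-multiples stay in an `A`-submodule. -/
theorem LemmaO_smul_mem (S : Submodule A V) (c : K) {x : V} (hx : x ∈ S) : c • x ∈ S := by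
  rw [← algebraMap_smul A c x]
  exact S.smul_mem _ hx

/-- (★): `a V` is a stable `A`-submodule of `X`. -/
theorem star (hX : core ρ X = ⊥) (a : A) (ha : ∀ x, a • x ∈ X) (x : V) : a • x = 0 := by
  have h : a • x ∈ core ρ X := mem_core.2 fun g => by
    rw [map_smul]
    exact ha _
  rw [hX] at h
  exact (Submodule.mem_bot A).1 h

/-- `a := t σ - 1 - χ σ` maps `V` into `X`
(`a x = (σ x - x) + χ σ (σ⁻¹ x - x)`, `σ⁻¹ x - x = -(σ (σ⁻¹ x) - σ⁻¹ x)`), so `a = 0` by (★);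
`σ (a x) = (σ - 1)(σ - χ σ) x`. -/
theorem split_of_inertia (hch : IsCH ρ χ t) (hX : core ρ X = ⊥) {σ : Γ}
    (hσ : ∀ x, ρ σ x - x ∈ X) (hχ : χ σ ≠ 1) : Split ρ χ σ 1 (χ σ) := by
  have hinv : ∀ x, ρ σ⁻¹ x - x ∈ X := by
    intro x
    have h1 := hσ (ρ σ⁻¹ x)
    rw [rho_apply_inv] at h1
    have h2 := X.neg_mem h1
    rwa [neg_sub] at h2
  have key : ∀ x : V, t σ • x = x + χ σ • x := by
    intro x
    have h0 := star hX (t σ - algebraMap K A (1 + χ σ)) (fun y => by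
      have e : (t σ - algebraMap K A (1 + χ σ)) • y =
          (ρ σ y - y) + χ σ • (ρ σ⁻¹ y - y) := by
        rw [sub_smul, algebraMap_smul, ← hch σ y, add_smul, one_smul, smul_sub]
        abel
      rw [e]
      exact X.add_mem (hσ y) (LemmaO_smul_mem X _ (hinv y))) x
    rw [sub_smul, algebraMap_smul, add_smul, one_smul, sub_eq_zero] at h0
    exact h0
  refine ⟨hχ.symm, one_mul _, fun x => ?_⟩
  have h1 := hch σ (ρ σ x)
  rw [rho_inv_apply, key] at h1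
  rw [add_smul, one_smul, one_mul]
  have h2 : ρ σ (ρ σ x) = ρ σ x + χ σ • ρ σ x - χ σ • x := by
    rw [← h1]
    abel
  rw [h2]
  abel

/-- `X = ker (σ - χ σ)`.  `⊇`: `(χ σ - 1) y = σ y - y ∈ X`.  `⊆`: by `Split.decomp` (applied to `S = X`,
which is `σ`-stable since `σ x - x ∈ X`) it is enough to show `Z := X ⊓ eig ρ σ 1 = ⊥`. For `v ∈ Z`, `h ∈ Γ`:
`(χ σ - 1) • h v = off 1 h v - al (χ σ) h • v` (`smul_rho_eq`), `off 1 h v ∈ eig (χ σ) ≤ X`,
`al .. • v ∈ X`. So `h v ∈ X` for all `h`: `v ∈ core ρ X = ⊥`. -/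
theorem eq_eig_of_inertia (hch : IsCH ρ χ t) (hX : core ρ X = ⊥) {σ : Γ}
    (hσ : ∀ x, ρ σ x - x ∈ X) (hχ : χ σ ≠ 1) : X = eig ρ σ (χ σ) := by
  have hs := split_of_inertia hch hX hσ hχ
  have hne : χ σ - 1 ≠ 0 := sub_ne_zero.2 hχ
  have hge : eig ρ σ (χ σ) ≤ X := by
    intro y hy
    have h1 := hσ y
    rw [mem_eig.1 hy] at h1
    have h2 : (χ σ - 1) • y ∈ X := by
      rw [sub_smul, one_smul]
      exact h1
    have h3 := LemmaO_smul_mem X (χ σ - 1)⁻¹ h2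
    rwa [smul_smul, inv_mul_cancel₀ hne, one_smul] at h3
  have hstab : ∀ x ∈ X, ρ σ x ∈ X := by
    intro x hx
    have h1 := X.add_mem (hσ x) hx
    rwa [sub_add_cancel] at h1
  have hZ : ∀ v ∈ eig ρ σ (1 : K) ⊓ X, v = 0 := by
    rintro v ⟨hv1, hvX⟩
    have hv1 : v ∈ eig ρ σ (1 : K) := hv1
    have hvX : v ∈ X := hvX
    have hcore : v ∈ core ρ X := by
      rw [mem_core]
      intro h
      have h1 := smul_rho_eq hch hs hv1 h
      have h2 : (χ σ - 1) • ρ h v ∈ X := by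
        rw [h1]
        exact X.sub_mem (hge (off_mem hs h v)) (X.smul_mem _ hvX)
      have h3 := LemmaO_smul_mem X (χ σ - 1)⁻¹ h2
      rwa [smul_smul, inv_mul_cancel₀ hne, one_smul] at h3
    rw [hX] at hcore
    exact (Submodule.mem_bot A).1 hcore
  refine le_antisymm ?_ hge
  intro x hx
  obtain ⟨xa, hxa, xb, hxb, rfl⟩ := hs.decomp X hstab hx
  rw [hZ xa hxa, zero_add]
  exact hxb.1

/-- Lemma O.  If `χ σ ≠ 1` use `eq_eig_of_inertia` for `σ`; if `χ σ = 1` use it for `σ₀` and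
`σ * σ₀`. -/
theorem lemmaO (hch : IsCH ρ χ t) (hX : core ρ X = ⊥) (Il : Subgroup Γ)
    (hIl : ∀ σ ∈ Il, ∀ x, ρ σ x - x ∈ X) {σ₀ : Γ} (hσ₀ : σ₀ ∈ Il) (hχ : χ σ₀ ≠ 1) :
    ∀ σ ∈ Il, ∀ x ∈ X, ρ σ x = χ σ • x := by
  intro σ hσ x hx
  by_cases h1 : χ σ = 1
  · have hmul : σ * σ₀ ∈ Il := Il.mul_mem hσ hσ₀
    have hχ' : χ (σ * σ₀) ≠ 1 := by
      rw [map_mul, h1, one_mul]
      exact hχ
    have e1 := eq_eig_of_inertia hch hX (hIl _ hmul) hχ'
    have e2 := eq_eig_of_inertia hch hX (hIl _ hσ₀) hχ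
    have h2 : ρ (σ * σ₀) x = χ (σ * σ₀) • x := by
      rw [e1] at hx
      exact mem_eig.1 hx
    have h3 : ρ σ₀ x = χ σ₀ • x := by
      rw [e2] at hx
      exact mem_eig.1 hx
    rw [rho_mul_apply, h3, rho_smul, map_mul, h1, one_mul] at h2
    have h4 := congrArg (fun z => (χ σ₀)⁻¹ • z) h2
    simp only [smul_smul, inv_mul_cancel₀ (chi_ne_zero χ σ₀), one_smul] at h4
    rw [h4, h1, one_smul]
  · have e1 := eq_eig_of_inertia hch hX (hIl _ hσ) h1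
    rw [e1] at hx
    exact mem_eig.1 hx

end Fermat.Agent.S15.Lat
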