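/-
S15-LAT, layer 1: (A3) the unit root operator `u`, without Hensel.
-/
import Fermat.Agent.S15.Lat.LemmaO

set_option autoImplicit false
set_option linter.unusedSectionVars false

namespace Fermat.Agent.S15.Lat

variable {K A V Γ : Type*} [Field K] [CommRing A] [Algebra K A] [AddCommGroup V] [Module K V]
  [Module A V] [IsScalarTower K A V] [Group Γ]
  {ρ : Γ →* Module.End A V} {χ : Γ →* K} {t : Γ → A} {X : Submodule A V}

theorem FU_ch {F : Γ} (hch : IsCH ρ χ t) (hχF : χ F = 1) (x : V) :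
    ρ F (ρ F x) = t F • ρ F x - x := by
  have h := hch F (ρ F x)
  rw [rho_inv_apply, hχF, one_smul] at h
  rw [← h, add_sub_cancel_right]

theorem FU_smul_mem (X : Submodule A V) (c : K) {x : V} (hx : x ∈ X) : c • x ∈ X := by
  rw [← algebraMap_smul A c x]
  exact X.smul_mem _ hx

theorem FU_E1 (hch : IsCH ρ χ t) {F : Γ} (hχF : χ F = 1) (Tl : A) {l : K}
    (hes : ∀ x, ρ F (ρ F x) - Tl • ρ F x + l • x ∈ X) (x : V) :
    (t F - Tl) • ρ F x - (1 - l) • x ∈ X := by
  have h := hes x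
  rw [FU_ch hch hχF] at h
  convert h using 1
  module

theorem FU_quad (hch : IsCH ρ χ t) (hX : core ρ X = ⊥) {F : Γ}
    (hχF : χ F = 1) (Tl : A) {l : K}
    (hes : ∀ x, ρ F (ρ F x) - Tl • ρ F x + l • x ∈ X) (x : V) :
    (algebraMap K A (1 - l) ^ 2 - algebraMap K A (1 - l) * Tl * (t F - Tl)
      + algebraMap K A l * (t F - Tl) ^ 2) • x = 0 := by
  refine star hX _ (fun x => ?_) x
  have h1 := X.smul_mem ((t F - Tl) ^ 2) (hes x)
  have h2 := FU_E1 hch hχF Tl hes ((t F - Tl) • ρ F x)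
  have h3 := FU_smul_mem X (1 - l) (FU_E1 hch hχF Tl hes x)
  have h4 := X.smul_mem (Tl * (t F - Tl)) (FU_E1 hch hχF Tl hes x)
  have h5 := X.add_mem (X.sub_mem (X.sub_mem h1 h2) h3) h4
  convert h5 using 1
  rw [map_smul]
  simp only [← algebraMap_smul A (1 - l), ← algebraMap_smul A l]
  module

/-- FU1.  `s := t F - Tl`, `κ := 1 - l`.  (CH) at `F x`: `F² x - t F • F x + x = 0`. Subtract `hes`:
`s • F x - κ • x ∈ X` for all `x`.  Hence (apply it to `x` and to `s • F x`-type terms; `X` is stable under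
`A` and `F`) `(κ² - κ Tl s + l s²) • x ∈ X` for all `x`  [mod `X`: `s² (F² - Tl F + l) = κ² - κ Tl s + l s²`];
by (★) this element kills `V`.  With `u := Tl - (l / κ) • s`:  `u * s = κ` on `V`. -/
theorem unitRoot_mul (hch : IsCH ρ χ t) (hX : core ρ X = ⊥) {F : Γ} (hF : ∀ x ∈ X, ρ F x ∈ X)
    (hχF : χ F = 1) (Tl : A) {l : K} (hl : l ≠ 1)
    (hes : ∀ x, ρ F (ρ F x) - Tl • ρ F x + l • x ∈ X) (x : V) :
    (Tl - (l / (1 - l)) • (t F - Tl)) • (t F - Tl) • x = (1 - l) • x := by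
  have hκ : (1 - l) ≠ 0 := sub_ne_zero.mpr (Ne.symm hl)
  have h := FU_quad hch hX hχF Tl hes x
  have h2 : (1 - l) • ((Tl - (l / (1 - l)) • (t F - Tl)) • (t F - Tl) • x - (1 - l) • x) = 0 := by
    have h3 : (1 - l) • ((Tl - (l / (1 - l)) • (t F - Tl)) • (t F - Tl) • x - (1 - l) • x)
        = -((algebraMap K A (1 - l) ^ 2 - algebraMap K A (1 - l) * Tl * (t F - Tl)
      + algebraMap K A ((1 - l) * (l / (1 - l))) * (t F - Tl) ^ 2) • x) := by
      rw [map_mul]
      simp only [← algebraMap_smul A (1 - l), ← algebraMap_smul A (l / (1 - l)), smul_eq_mul]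
      module
    rw [h3, mul_div_cancel₀ _ hκ, h, neg_zero]
  exact sub_eq_zero.mp ((smul_eq_zero.mp h2).resolve_left hκ)

/-- FU2.  Consequences of `u s = κ ≠ 0` (`u`, `s` injective on `V`):
* `F x - u x ∈ X`: `s • (F x - u x) ∈ X`, apply `u`;
* `u² - Tl u + l = 0` on `V` (multiply by `s²`);
* `(u F - 1)(F - u) = 0` on `V`, because `t F * u = u² + 1` (`s u + Tl u = κ + u² + l`). -/
theorem unitRoot_props (hch : IsCH ρ χ t) (hX : core ρ X = ⊥) {F : Γ} (hF : ∀ x ∈ X, ρ F x ∈ X)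
    (hχF : χ F = 1) (Tl : A) {l : K} (hl : l ≠ 1)
    (hes : ∀ x, ρ F (ρ F x) - Tl • ρ F x + l • x ∈ X) {u : A}
    (hu : u = Tl - (l / (1 - l)) • (t F - Tl)) :
    (∀ x, ρ F x - u • x ∈ X) ∧ (∀ x : V, u • u • x - Tl • u • x + l • x = 0) ∧
      (∀ x, u • ρ F (ρ F x - u • x) = ρ F x - u • x) := by
  have hκ : (1 - l) ≠ 0 := sub_ne_zero.mpr (Ne.symm hl)
  have hus : ∀ x : V, u • (t F - Tl) • x = (1 - l) • x := by
    intro x
    rw [hu]
    exact unitRoot_mul hch hX hF hχF Tl hl hes x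
  have hquad : ∀ x : V, u • u • x - Tl • u • x + l • x = 0 := by
    intro x
    have h1 : u • u • x - Tl • u • x + l • x
        = -((l / (1 - l)) • (u • (t F - Tl) • x)) + l • x := by
      have h2 : u • u • x - Tl • u • x = u • (u - Tl) • x := by module
      rw [h2]
      have h3 : u - Tl = -((l / (1 - l)) • (t F - Tl)) := by rw [hu]; ring
      rw [h3]
      simp only [← algebraMap_smul A (l / (1 - l)), smul_eq_mul]
      module
    rw [h1, hus, smul_smul, div_mul_cancel₀ _ hκ, neg_add_cancel]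
  refine ⟨fun x => ?_, hquad, fun x => ?_⟩
  · have h1 := X.smul_mem u (FU_E1 hch hχF Tl hes x)
    rw [smul_sub, hus] at h1
    have h2 := FU_smul_mem X (1 - l)⁻¹ h1
    convert h2 using 1
    rw [smul_comm u (1 - l) x, ← smul_sub, smul_smul, inv_mul_cancel₀ hκ, one_smul]
  · rw [map_sub, map_smul, FU_ch hch hχF]
    have h1 := hus (ρ F x)
    have h2 := hquad (ρ F x)
    have h3 : u • (t F • ρ F x - x - u • ρ F x) - (ρ F x - u • x)
        = (u • (t F - Tl) • ρ F x - (1 - l) • ρ F x)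
          - (u • u • ρ F x - Tl • u • ρ F x + l • ρ F x) := by
      simp only [← algebraMap_smul A (1 - l), ← algebraMap_smul A l, map_sub, map_one]
      module
    rw [h1, h2, sub_self, sub_zero] at h3
    exact sub_eq_zero.mp h3

/-- FU3.  `u² - 1` is injective: `(u - 1)(u - l) = (Tl - 1 - l) u`, `(u + 1)(u + l) = (Tl + 1 + l) u`,
`u` injective. -/
theorem unitRoot_sq_inj {Tl u : A} {l : K} (hu0 : ∀ x : V, u • x = 0 → x = 0)
    (hquad : ∀ x : V, u • u • x - Tl • u • x + l • x = 0)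
    (hne1 : ∀ x : V, Tl • x = (1 + l) • x → x = 0)
    (hne2 : ∀ x : V, Tl • x + (1 + l) • x = 0 → x = 0) (x : V) (hx : u • u • x = x) : x = 0 := by
  apply hu0
  apply hne2
  apply hu0
  apply hne1
  rw [← sub_eq_zero]
  set L : A := algebraMap K A l with hL
  -- `(Tl - 1 - l) u z = (u - 1) (u - l) z`
  have q1 : ∀ z : V, Tl • u • z = u • u • z + L • z := by
    intro z
    have := hquad z
    rw [← algebraMap_smul A l z, ← hL] at this
    rw [← sub_eq_zero, ← neg_eq_zero, ← this]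
    module
  have e1 : ∀ z : V, (1 + l) • z = (1 + L) • z := by
    intro z
    rw [← algebraMap_smul A (1 + l) z, map_add, map_one]
  rw [e1, e1, q1 x, q1 (u • u • x + L • x + (1 + L) • u • x)]
  have h1 : u • u • (u • u • x + L • x + (1 + L) • u • x) + L • (u • u • x + L • x + (1 + L) • u • x)
      - (1 + L) • u • (u • u • x + L • x + (1 + L) • u • x)
      = ((u - L) * (u + L)) • (u • u • x - x) := by
    module
  rw [h1, hx, sub_self, smul_zero]

end Fermat.Agent.S15.Lat
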