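/-
S15-LAT, layer 1: passing to the reduced quotient `V ⧸ core ρ X`.
-/
import Fermat.Agent.S15.Lat.Defs

set_option autoImplicit false

namespace Fermat.Agent.S15.Lat

variable {K A V Γ : Type*} [Field K] [CommRing A] [Algebra K A] [AddCommGroup V] [Module K V]
  [Module A V] [IsScalarTower K A V] [Group Γ]
  {ρ : Γ →* Module.End A V} {χ : Γ →* K} {t : Γ → A}

/-- Q1.  `mk x ∈ X.map mkQ ↔ x ∈ X` when `S ≤ X`. -/
theorem mk_mem_map_iff {S X : Submodule A V} (h : S ≤ X) (x : V) :
    (Submodule.Quotient.mk x : V ⧸ S) ∈ X.map S.mkQ ↔ x ∈ X := by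
  constructor
  · rintro ⟨y, hy, hyx⟩
    have h1 : y - x ∈ S := (Submodule.Quotient.eq S).1 hyx
    have h2 : x = y - (y - x) := by abel
    rw [h2]
    exact X.sub_mem hy (h h1)
  · intro hx
    exact ⟨x, hx, rfl⟩

/-- Q2.  The quotient by `core ρ X` is reduced. -/
theorem core_quot (ρ : Γ →* Module.End A V) (X : Submodule A V) :
    core (quotRep ρ (core ρ X) (core_stable ρ X)) (X.map (core ρ X).mkQ) = ⊥ := by
  rw [eq_bot_iff]
  intro y hy
  obtain ⟨x, rfl⟩ := Submodule.Quotient.mk_surjective _ y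
  rw [mem_core] at hy
  rw [Submodule.mem_bot, Submodule.Quotient.mk_eq_zero, mem_core]
  intro g
  have := hy g
  rwa [quotRep_mk, mk_mem_map_iff (core_le ρ X)] at this

theorem Quot_mem_of_smul_mem [FiniteDimensional K V] (a : A) (ha : ∀ x : V, a • x = 0 → x = 0)
    (S : Submodule A V) (x : V) (hx : a • x ∈ S) : x ∈ S := by
  let f : S →ₗ[K] S := (LinearMap.lsmul A S a).restrictScalars K
  have hinj : Function.Injective f := by
    rw [injective_iff_map_eq_zero]
    intro s hs
    have h1 : a • (s : V) = 0 := congrArg Subtype.val hs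
    exact Subtype.ext (ha _ h1)
  obtain ⟨s, hs⟩ := (LinearMap.injective_iff_surjective.1 hinj) ⟨a • x, hx⟩
  have h1 : a • (s : V) = a • x := congrArg Subtype.val hs
  have h2 : (s : V) - x = 0 := ha _ (by rw [smul_sub, h1, sub_self])
  rw [← sub_eq_zero.1 h2]
  exact s.2

/-- Q3.  A scalar `a ∈ A` which is injective on the finite dimensional `V` is injective on every quotient
`V ⧸ S` (`a` is injective on `S`, hence `a S = S`; if `a x ∈ S` then `a x = a s`, `x = s`). -/
theorem smul_inj_quot [FiniteDimensional K V] (a : A) (ha : ∀ x : V, a • x = 0 → x = 0)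
    (S : Submodule A V) (x : V ⧸ S) (hx : a • x = 0) : x = 0 := by
  obtain ⟨y, rfl⟩ := Submodule.Quotient.mk_surjective _ x
  rw [← Submodule.Quotient.mk_smul, Submodule.Quotient.mk_eq_zero] at hx
  rw [Submodule.Quotient.mk_eq_zero]
  exact Quot_mem_of_smul_mem (K := K) a ha S y hx

/-- Q4.  Same, membership form. -/
theorem mem_of_smul_mem [FiniteDimensional K V] (a : A) (ha : ∀ x : V, a • x = 0 → x = 0)
    (S : Submodule A V) (x : V) (hx : a • x ∈ S) : x ∈ S :=
  Quot_mem_of_smul_mem (K := K) a ha S x hx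

end Fermat.Agent.S15.Lat
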