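/-
S15-LAT, layer 1: (A3) the unit root operator `u`, without Hensel.
-/
import Fermat.Agent.S15.Lat.FrobU1
import Fermat.Agent.S15.Lat.Quot

set_option autoImplicit false

namespace Fermat.Agent.S15.Lat

variable {K A V Γ : Type*} [Field K] [CommRing A] [Algebra K A] [AddCommGroup V] [Module K V]
  [Module A V] [IsScalarTower K A V] [Group Γ]
  {ρ : Γ →* Module.End A V} {χ : Γ →* K} {t : Γ → A} {X : Submodule A V}

/-- FU4 = EXPORT.  On `X`: for `x ∈ X`, `z := u • F x - x ∈ X` satisfies `F z = u z` (FU2, third item,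
`u` commutes with `F`).  `Z := {z ∈ X | F z = u • z}` is an `A`-submodule.  For `z ∈ Z`, `h ∈ Γ`, with
`u' := κ⁻¹ • s` (`u u' = 1`, `F⁻¹ z = u' z`): (CH) for `F h` and `h` give
`F h z - u' • h z = (t (F h) - u' t h) • z ∈ Z ≤ X`; also `F h z - u • h z ∈ X`; so `(u - u') • h z ∈ X`,
`(u² - 1) • h z ∈ X`.  `u² - 1` is injective on `V`, maps `X` into `X`, `X` is finite dimensional: it is
bijective on `X`, so `h z ∈ X`.  Hence `z ∈ core ρ X = ⊥`. -/
theorem exists_unitRoot [FiniteDimensional K V] (hch : IsCH ρ χ t) (hX : core ρ X = ⊥) {F : Γ}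
    (hF : ∀ x ∈ X, ρ F x ∈ X) (hχF : χ F = 1) (Tl : A) {l : K} (hl : l ≠ 1)
    (hes : ∀ x, ρ F (ρ F x) - Tl • ρ F x + l • x ∈ X)
    (hne1 : ∀ x : V, Tl • x = (1 + l) • x → x = 0)
    (hne2 : ∀ x : V, Tl • x + (1 + l) • x = 0 → x = 0) {u : A}
    (hu : u = Tl - (l / (1 - l)) • (t F - Tl)) :
    (∀ x, ρ F x - u • x ∈ X) ∧ (∀ x ∈ X, u • ρ F x = x) ∧ (∀ x : V, u • u • x = x → x = 0) := by
  have hκ : (1 - l) ≠ 0 := sub_ne_zero.mpr (Ne.symm hl)
  obtain ⟨p1, p2, p3⟩ := unitRoot_props hch hX hF hχF Tl hl hes hu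
  have hus : ∀ x : V, u • (t F - Tl) • x = (1 - l) • x := by
    intro x
    rw [hu]
    exact unitRoot_mul hch hX hF hχF Tl hl hes x
  have hu0 : ∀ x : V, u • x = 0 → x = 0 := by
    intro x hx
    have h1 := hus x
    rw [smul_comm, hx, smul_zero] at h1
    exact (smul_eq_zero.mp h1.symm).resolve_left hκ
  have hsq : ∀ x : V, u • u • x = x → x = 0 := unitRoot_sq_inj hu0 p2 hne1 hne2
  refine ⟨p1, fun x hx => ?_, hsq⟩
  -- the inverse of `u`
  set u' : A := (1 - l)⁻¹ • (t F - Tl) with hu'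
  have huu' : ∀ y : V, u • u' • y = y := by
    intro y
    rw [hu', smul_assoc, smul_comm u, hus, smul_smul, inv_mul_cancel₀ hκ, one_smul]
  set z : V := u • ρ F x - x with hz
  have hzX : z ∈ X := X.sub_mem (X.smul_mem u (hF x hx)) hx
  have hFz : ρ F z = u • z := by
    have h1 := p3 x
    rw [map_sub, map_smul] at h1
    rw [hz, map_sub, map_smul, ← sub_eq_zero]
    rw [← sub_eq_zero] at h1
    rw [← h1]
    module
  have hFz' : ρ F⁻¹ z = u' • z := by
    have h1 : ρ F⁻¹ (u • z) = z := by rw [← hFz, rho_inv_apply]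
    rw [map_smul] at h1
    have h2 := huu' (ρ F⁻¹ z)
    rw [smul_comm, h1] at h2
    exact h2.symm
  have hcore : z ∈ core ρ X := by
    rw [mem_core]
    intro h
    have e1 := hch (F * h) z
    have e2 := hch h z
    rw [rho_mul_apply, mul_inv_rev, rho_mul_apply, hFz', map_smul, map_mul, hχF, one_mul] at e1
    -- `F h z - u' h z ∈ X`
    have m1 : ρ F (ρ h z) - u' • ρ h z ∈ X := by
      have : ρ F (ρ h z) - u' • ρ h z = (t (F * h) - u' * t h) • z := by
        rw [sub_smul, ← e1, mul_smul, ← e2, smul_add, smul_comm u' (χ h)]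
        abel
      rw [this]
      exact X.smul_mem _ hzX
    have m2 := p1 (ρ h z)
    have m3 : (u * u - 1) • ρ h z ∈ X := by
      have h3 := X.smul_mem u (X.sub_mem m1 m2)
      have h4 : u • (ρ F (ρ h z) - u' • ρ h z - (ρ F (ρ h z) - u • ρ h z))
          = (u * u - 1) • ρ h z := by
        rw [sub_sub_sub_cancel_left, smul_sub, huu', sub_smul, mul_smul, one_smul]
      rwa [h4] at h3
    refine mem_of_smul_mem (K := K) (u * u - 1) (fun y hy => hsq y ?_) X _ m3
    rw [sub_smul, mul_smul, one_smul] at hy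
    exact sub_eq_zero.mp hy
  rw [hX, Submodule.mem_bot] at hcore
  exact sub_eq_zero.mp hcore

end Fermat.Agent.S15.Lat
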