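/-
S15-LAT, layer 1: (A5) no commutative constituent, in the form needed: a `Γ`-stable `A`-submodule of
the reduced module on which `Γ` acts commutatively is zero.
-/
import Fermat.Agent.S15.Lat.Defs

set_option autoImplicit false

namespace Fermat.Agent.S15.Lat

variable {K A V Γ : Type*} [Field K] [CommRing A] [Algebra K A] [AddCommGroup V] [Module K V]
  [Module A V] [IsScalarTower K A V] [Group Γ]
  {ρ : Γ →* Module.End A V} {χ : Γ →* K} {t : Γ → A}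

/-- Proof. Let `S` be stable with commutative action.
(1) `S' := span_A {ρ σ x - x | σ ∈ Il, x ∈ S}` is contained in `S ⊓ X` and stable (commutativity:
`h (σ x - x) = σ (h x) - h x`), so `S' ≤ core ρ X = ⊥`: `Il` acts trivially on `S`.
(2) `Z := {x ∈ S | ∀ σ ∈ Ip, ρ σ x = x}` is an `A`-submodule, stable by commutativity; by `hmink`
`Γ` acts trivially on `Z`; then (CH) gives `t g₁ • x = x + χ g₁ • x` on `Z`, so `Z = ⊥` by `hne`.
(3) If `x ∈ S`: for `τ ∈ Ip`, `ρ τ x - x ∈ Z` by `hIp`, so `ρ τ x = x` for all `τ ∈ Ip`: `x ∈ Z = ⊥`. -/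
theorem noComm_of (hch : IsCH ρ χ t) (X : Submodule A V) (hX : core ρ X = ⊥) (Il Ip : Set Γ)
    (hIl : ∀ σ ∈ Il, ∀ x, ρ σ x - x ∈ X)
    (hIp : ∀ σ ∈ Ip, ∀ τ ∈ Ip, ∀ x, ρ σ (ρ τ x - x) = ρ τ x - x)
    (hmink : ∀ S : Submodule A V, Stable ρ S → (∀ σ ∈ Il, ∀ x ∈ S, ρ σ x = x) →
      (∀ σ ∈ Ip, ∀ x ∈ S, ρ σ x = x) → ∀ g, ∀ x ∈ S, ρ g x = x)
    (g₁ : Γ) (hne : ∀ x : V, t g₁ • x = (1 + χ g₁) • x → x = 0) : NoComm ρ := by
  intro S hS hcomm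
  -- (1) `Il` acts trivially on `S`
  have h1 : ∀ σ ∈ Il, ∀ x ∈ S, ρ σ x = x := by
    intro σ hσ x hx
    have hmem : ρ σ x - x ∈ core ρ X := by
      rw [mem_core]
      intro g
      rw [map_sub, hcomm g σ x hx]
      exact hIl σ hσ _
    rw [hX, Submodule.mem_bot, sub_eq_zero] at hmem
    exact hmem
  -- (2) the `Ip`-invariants
  let Z : Submodule A V :=
    { carrier := {x | x ∈ S ∧ ∀ σ ∈ Ip, ρ σ x = x}
      add_mem' := by
        rintro x y ⟨hx, hx'⟩ ⟨hy, hy'⟩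
        exact ⟨S.add_mem hx hy, fun σ hσ => by rw [map_add, hx' σ hσ, hy' σ hσ]⟩
      zero_mem' := ⟨S.zero_mem, fun σ _ => map_zero _⟩
      smul_mem' := by
        rintro c x ⟨hx, hx'⟩
        exact ⟨S.smul_mem c hx, fun σ hσ => by rw [map_smul, hx' σ hσ]⟩ }
  have hZS : ∀ x ∈ Z, x ∈ S := fun x hx => hx.1
  have hZst : Stable ρ Z := by
    rintro g x ⟨hx, hx'⟩
    exact ⟨hS g x hx, fun σ hσ => by rw [hcomm σ g x hx, hx' σ hσ]⟩
  have hZtriv := hmink Z hZst (fun σ hσ x hx => h1 σ hσ x hx.1) (fun σ hσ x hx => hx.2 σ hσ)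
  have hZ0 : ∀ x ∈ Z, x = 0 := by
    intro x hx
    apply hne
    have h2 := hch g₁ x
    rw [hZtriv g₁ x hx, hZtriv g₁⁻¹ x hx] at h2
    rw [← h2, add_smul, one_smul]
  -- (3)
  rw [eq_bot_iff]
  intro x hx
  rw [Submodule.mem_bot]
  apply hZ0
  refine ⟨hx, fun τ hτ => ?_⟩
  have h3 : ρ τ x - x ∈ Z :=
    ⟨S.sub_mem (hS τ x hx) hx, fun σ hσ => hIp σ hσ τ hτ x⟩
  exact sub_eq_zero.mp (hZ0 _ h3)

end Fermat.Agent.S15.Lat
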