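/-
S15-LAT, layer 1.5, part 2: the hypotheses of layer 1 on the reduced quotient `Q = V ⧸ core ρ Vm`.
Every proof: `obtain ⟨v, rfl⟩ := Submodule.Quotient.mk_surjective _ x`, rewrite with `quotRep_mk`,
`← Submodule.Quotient.mk_smul / mk_add / mk_sub`, and use the corresponding field of `D`.
-/
import Fermat.Agent.S15.Lat.Alg
import Fermat.Agent.S15.Lat.Quot
import Fermat.Agent.S15.Lat.NoComm
import Fermat.Agent.S15.Lat.AtP2

set_option autoImplicit false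

namespace Fermat.Agent.S15.Lat

open Fermat.Agent.S15.Lin (IsStab tOp CH IsLargest)
open scoped IsMulCommutative
open Module (finrank)

variable {K V Γ : Type*} [Field K] [AddCommGroup V] [Module K V] [Group Γ]

namespace LinIn

variable (D : LinIn K V Γ)

/-- the reduced quotient -/
abbrev Q : Type _ := V ⧸ D.SA

/-- `ρ` on `Q` -/
def rhoQ : Γ →* Module.End D.alg D.Q := quotRep D.rhoA D.SA D.SA_stable

/-- the image of `Vm` -/
def XQ : Submodule D.alg D.Q := D.VmA.map D.SA.mkQ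

/-- the image of `Vw` -/
def WQ : Submodule D.alg D.Q := D.VwA.map D.SA.mkQ

@[simp] theorem rhoQ_mk (g : Γ) (v : V) :
    D.rhoQ g (Submodule.Quotient.mk v) = Submodule.Quotient.mk (D.ρ g v) := rfl

theorem isCH_Q : IsCH D.rhoQ D.χ D.tA := isCH_quot D.isCH _ _

theorem core_XQ : core D.rhoQ D.XQ = ⊥ := core_quot _ _

theorem mk_mem_XQ {v : V} : (Submodule.Quotient.mk v : D.Q) ∈ D.XQ ↔ v ∈ D.Vm :=
  mk_mem_map_iff D.SA_le v

theorem mk_eq_zero {v : V} : (Submodule.Quotient.mk v : D.Q) = 0 ↔ v ∈ D.Vb :=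
  Submodule.Quotient.mk_eq_zero _

/-- QF1 -/
theorem mk_mem_WQ {v : V} : (Submodule.Quotient.mk v : D.Q) ∈ D.WQ ↔ v ∈ D.Vw ⊔ D.Vb := by
  constructor
  · rintro ⟨w, hw, hwv⟩
    have h1 : w - v ∈ D.SA := (Submodule.Quotient.eq D.SA).1 hwv
    have h2 : v = w + -(w - v) := by abel
    rw [h2]
    exact Submodule.add_mem_sup hw (D.Vb.neg_mem h1)
  · intro hv
    obtain ⟨w, hw, b, hb, rfl⟩ := Submodule.mem_sup.1 hv
    refine ⟨w, hw, ?_⟩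
    rw [Submodule.mkQ_apply, Submodule.Quotient.mk_add, D.mk_eq_zero.2 hb, add_zero]

/-- QF2 -/
theorem Il_Q : ∀ σ ∈ (D.Il : Set Γ), ∀ x : D.Q, D.rhoQ σ x - x ∈ D.XQ := by
  intro σ hσ x
  obtain ⟨v, rfl⟩ := Submodule.Quotient.mk_surjective _ x
  rw [rhoQ_mk, ← Submodule.Quotient.mk_sub, mk_mem_XQ]
  exact D.Il_quot σ hσ v

/-- QF3 (`D.Ip_quot`, `D.Vw_fix`) -/
theorem Ip_Q : ∀ σ ∈ (D.Ip : Set Γ), ∀ τ ∈ (D.Ip : Set Γ), ∀ x : D.Q,
    D.rhoQ σ (D.rhoQ τ x - x) = D.rhoQ τ x - x := by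
  intro σ hσ τ hτ x
  obtain ⟨v, rfl⟩ := Submodule.Quotient.mk_surjective _ x
  rw [rhoQ_mk, ← Submodule.Quotient.mk_sub, rhoQ_mk, D.Vw_fix σ hσ _ (D.Ip_quot τ hτ v)]

/-- QF4.  `D.mink1` with `Y' = D.Vb`, `Y = (S.comap D.SA.mkQ).restrictScalars K`. -/
theorem mink_Q : ∀ S : Submodule D.alg D.Q, Stable D.rhoQ S →
    (∀ σ ∈ (D.Il : Set Γ), ∀ x ∈ S, D.rhoQ σ x = x) →
    (∀ σ ∈ (D.Ip : Set Γ), ∀ x ∈ S, D.rhoQ σ x = x) → ∀ g, ∀ x ∈ S, D.rhoQ g x = x := by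
  intro S hS hIl hIp g x hx
  obtain ⟨v, rfl⟩ := Submodule.Quotient.mk_surjective _ x
  have hY : IsStab D.ρ ((S.comap D.SA.mkQ).restrictScalars K) := by
    intro h y hy
    have h1 : (Submodule.Quotient.mk y : D.Q) ∈ S := hy
    have h2 := hS h _ h1
    rw [rhoQ_mk] at h2
    exact h2
  have hle : D.Vb ≤ (S.comap D.SA.mkQ).restrictScalars K := by
    intro y hy
    show (Submodule.Quotient.mk y : D.Q) ∈ S
    rw [D.mk_eq_zero.2 hy]
    exact S.zero_mem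
  have hconv : ∀ (σ : Γ) (y : V), D.rhoQ σ (Submodule.Quotient.mk y) = Submodule.Quotient.mk y →
      D.ρ σ y - y ∈ D.Vb := by
    intro σ y h
    rw [← D.mk_eq_zero, Submodule.Quotient.mk_sub, ← rhoQ_mk, h, sub_self]
  have h := D.mink1 D.Vb _ D.isLargest_Vb.stab hY hle
    (fun σ hσ y hy => hconv σ y (hIp σ hσ _ hy)) (fun σ hσ y hy => hconv σ y (hIl σ hσ _ hy))
    g v hx
  rw [← D.mk_eq_zero, Submodule.Quotient.mk_sub, ← rhoQ_mk, sub_eq_zero] at h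
  exact h

/-- QF5.  `smul_inj_quot` for `a = D.tA D.g₀ - algebraMap K _ (1 + D.χ D.g₀)` (`D.ne`). -/
theorem ne_Q [FiniteDimensional K V] :
    ∀ x : D.Q, D.tA D.g₀ • x = (1 + D.χ D.g₀) • x → x = 0 := by
  intro x hx
  refine smul_inj_quot (K := K) (D.tA D.g₀ - algebraMap K D.alg (1 + D.χ D.g₀)) ?_ D.SA x ?_
  · intro v hv
    apply D.ne
    rw [sub_smul, algebraMap_smul, sub_eq_zero, tA_smul] at hv
    exact hv
  · rw [sub_smul, algebraMap_smul, hx, sub_self]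

/-- QF6 -/
theorem ne1_Q [FiniteDimensional K V] : ∀ x : D.Q, D.TlA • x = (1 + D.l) • x → x = 0 := by
  intro x hx
  refine smul_inj_quot (K := K) (D.TlA - algebraMap K D.alg (1 + D.l)) ?_ D.SA x ?_
  · intro v hv
    rw [sub_smul, algebraMap_smul, TlA_smul, sub_eq_zero] at hv
    exact D.ne1 v hv
  · rw [sub_smul, algebraMap_smul, hx, sub_self]

/-- QF7 -/
theorem ne2_Q [FiniteDimensional K V] : ∀ x : D.Q, D.TlA • x + (1 + D.l) • x = 0 → x = 0 := by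
  intro x hx
  refine smul_inj_quot (K := K) (D.TlA + algebraMap K D.alg (1 + D.l)) ?_ D.SA x ?_
  · intro v hv
    rw [add_smul, algebraMap_smul, TlA_smul] at hv
    exact D.ne2 v hv
  · rw [add_smul, algebraMap_smul, hx]

/-- QF8 -/
theorem φ_XQ : ∀ x ∈ D.XQ, D.rhoQ D.φ x ∈ D.XQ := by
  intro x hx
  obtain ⟨v, rfl⟩ := Submodule.Quotient.mk_surjective _ x
  rw [rhoQ_mk, mk_mem_XQ]
  exact D.φ_Vm v (D.mk_mem_XQ.1 hx)

/-- QF9 -/
theorem es_Q : ∀ x : D.Q,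
    D.rhoQ D.φ (D.rhoQ D.φ x) - D.TlA • D.rhoQ D.φ x + D.l • x ∈ D.XQ := by
  intro x
  obtain ⟨v, rfl⟩ := Submodule.Quotient.mk_surjective _ x
  rw [rhoQ_mk, rhoQ_mk, ← Submodule.Quotient.mk_smul, ← Submodule.Quotient.mk_smul,
    ← Submodule.Quotient.mk_sub, ← Submodule.Quotient.mk_add, mk_mem_XQ, TlA_smul]
  exact D.es v

/-- QF10 -/
theorem φp_sq_Q : ∀ x ∈ D.WQ, D.rhoQ D.φp (D.rhoQ D.φp x) = D.pp ^ 2 • x := by
  rintro x ⟨w, hw, rfl⟩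
  show D.rhoQ D.φp (D.rhoQ D.φp (Submodule.Quotient.mk w)) =
    D.pp ^ 2 • (Submodule.Quotient.mk w : D.Q)
  rw [rhoQ_mk, rhoQ_mk, ← Submodule.Quotient.mk_smul, D.φp_sq w hw]

/-- QF11.  `f_smul_mem` on `V` (with `Vw = D.VwA`, `Ip = D.Ip`), then project. -/
theorem f_Q : ∀ x : D.Q,
    (D.tA D.φp * D.tA D.φp - algebraMap K D.alg ((D.pp + 1) ^ 2)) • x ∈ D.WQ := by
  intro x
  obtain ⟨v, rfl⟩ := Submodule.Quotient.mk_surjective _ x
  have h := f_smul_mem D.isCH D.VwA (D.Ip : Set Γ) (fun σ hσ y => D.Ip_quot σ hσ y)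
    (fun y hy => D.Vw_inv y hy) D.χ_φp (fun y hy => D.φp_Vw y hy) (fun y hy => D.φp_sq y hy) v
  exact ⟨_, h, rfl⟩

theorem noComm_Q [FiniteDimensional K V] : NoComm D.rhoQ :=
  noComm_of D.isCH_Q D.XQ D.core_XQ D.Il D.Ip D.Il_Q D.Ip_Q D.mink_Q D.g₀ D.ne_Q

end LinIn

end Fermat.Agent.S15.Lat
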